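/-
S32-A2, A3 : the linear trace congruence and the determinant congruence (weak Chebotarev).
Generalisation of `TOR/AdicMaster.lean` (`charpoly_eq_of_kSys`) to finite sums.
-/
import Mathlib
import Fermat.Agent.TOR.AdicMaster

set_option autoImplicit false

namespace Fermat.Agent.S32

open Fermat.Agent.GR.Adic Fermat.Agent.TOR IsLocalRing Polynomial
open Fermat.Agent.GR.Asm (WeakChebotarev)

local notation "Qbar'" => AlgebraicClosure ℚ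

section A

variable {p : ℕ} {bad : Finset ℕ}

/-- The cyclotomic congruence: if `σ ^ j` (σ a Frobenius at `ℓ ≠ p`) and `g` agree on a primitive
`p ^ m`-th root of unity and `g = (·) ^ d` on `μ_{p^m}` then `ℓ ^ j ≡ d mod p ^ m`. -/
theorem chebTrace_cong (hp : p.Prime) {ℓ : ℕ} (hℓ : ℓ.Prime) (hℓp : ℓ ≠ p)
    (A : ValuationSubring Qbar') (hA : A.LiesOverPrime ℓ) (σ : GQ) (hσ : A.IsFrobeniusAt σ ℓ)
    (m j : ℕ) (g : GQ) (d : ℕ) (hd : ∀ ζ : Qbar', ζ ^ (p ^ m) = 1 → g ζ = ζ ^ d)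
    {ζ : Qbar'} (hζ : IsPrimitiveRoot ζ (p ^ m)) (hσg : (σ ^ j) ζ = g ζ) :
    ℓ ^ j ≡ d [MOD p ^ m] := by
  have hpos : 0 < p ^ m := pow_pos hp.pos _
  have e1 : ζ ^ (ℓ ^ j) = g ζ := by
    rw [← tor_frobenius_pow_root A hp hℓ hℓp hA σ hσ m hζ.pow_eq_one j]
    exact hσg
  have e2 : ζ ^ d = g ζ := (hd ζ hζ.pow_eq_one).symm
  have hfin : IsOfFinOrder ζ := isOfFinOrder_iff_pow_eq_one.mpr ⟨p ^ m, hpos, hζ.pow_eq_one⟩
  have := hfin.pow_eq_pow_iff_modEq.mp (e1.trans e2.symm)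
  rwa [← hζ.eq_orderOf] at this

/-- The one-element lemma. -/
theorem chebTrace_one (hcheb : WeakChebotarev) (hp : p.Prime) (hpbad : p ∈ bad)
    (K : KSys p (↑bad : Set ℕ))
    {𝕋 : Type*} [CommRing 𝕋] (ι : 𝕋 →+* Module.End ℤ K.L0) (τ : ℕ → 𝕋)
    (hτ : ∀ ℓ : ℕ, ℓ.Prime → ℓ ∉ bad → ι (τ ℓ) = K.T0 ℓ)
    {R : Type} [CommRing R] [IsLocalRing R]
    (ψ : 𝕋 →+* R)
    (ρ : GaloisRepAdic R)
    (hρ : ∀ ℓ : ℕ, ℓ.Prime → ℓ ∉ bad → ∀ A : ValuationSubring Qbar', A.LiesOverPrime ℓ →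
      ∀ σ : GQ, A.IsFrobeniusAt σ ℓ →
        LinearMap.charpoly (ρ.ρ σ) = X ^ 2 - C (ψ (τ ℓ)) * X + C (ℓ : R)) (n m : ℕ)
    (g : GQ) (d : ℕ) (hd : ∀ ζ : Qbar', ζ ^ (p ^ m) = 1 → g ζ = ζ ^ d) :
    ∃ t : 𝕋, (∀ z : K.L0, K.κ m (ι t z) = K.act g (K.κ m z) + d • K.act g⁻¹ (K.κ m z)) ∧
      LinearMap.trace R ρ.V (ρ.ρ g) - ψ t ∈ maximalIdeal R ^ n := by
  classical
  have hpos : 0 < p ^ m := pow_pos hp.pos _
  obtain ⟨L₁, hL₁, h₁⟩ := tor_exists_level ρ n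
  obtain ⟨L₂, hL₂, h₂⟩ := K.exists_level_kappa m 1
  obtain ⟨L₃, hL₃, h₃⟩ := K.exists_level_kappa m (K.act g⁻¹)
  have : NeZero ((p ^ m : ℕ) : Qbar') := ⟨Nat.cast_ne_zero.mpr hpos.ne'⟩
  obtain ⟨ζ, hζ⟩ := HasEnoughRootsOfUnity.exists_primitiveRoot Qbar' (p ^ m)
  have hint : IsIntegral ℚ ζ := (hζ.isIntegral hpos).tower_top
  have hL₄ : FiniteDimensional ℚ (IntermediateField.adjoin ℚ {ζ}) :=
    IntermediateField.adjoin.finiteDimensional hint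
  set L₄ := IntermediateField.adjoin ℚ {ζ} with hL₄def
  have hL12 : FiniteDimensional ℚ (L₁ ⊔ L₂ : IntermediateField ℚ Qbar') :=
    IntermediateField.finiteDimensional_sup L₁ L₂
  have hL34 : FiniteDimensional ℚ (L₃ ⊔ L₄ : IntermediateField ℚ Qbar') :=
    IntermediateField.finiteDimensional_sup L₃ L₄
  have hL : FiniteDimensional ℚ ((L₁ ⊔ L₂) ⊔ (L₃ ⊔ L₄) : IntermediateField ℚ Qbar') :=
    IntermediateField.finiteDimensional_sup _ _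
  have le₁ : L₁ ≤ (L₁ ⊔ L₂) ⊔ (L₃ ⊔ L₄) := le_sup_left.trans le_sup_left
  have le₂ : L₂ ≤ (L₁ ⊔ L₂) ⊔ (L₃ ⊔ L₄) := le_sup_right.trans le_sup_left
  have le₃ : L₃ ≤ (L₁ ⊔ L₂) ⊔ (L₃ ⊔ L₄) := le_sup_left.trans le_sup_right
  have le₄ : L₄ ≤ (L₁ ⊔ L₂) ⊔ (L₃ ⊔ L₄) := le_sup_right.trans le_sup_right
  obtain ⟨ℓ, A, σ, j, hℓ, hℓT, hA, hσ, hσg⟩ := hcheb _ hL bad g
  have hℓbad : ℓ ∉ (↑bad : Set ℕ) := by simpa using hℓT
  have hℓp : ℓ ≠ p := fun h => hℓT (h ▸ hpbad)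
  have hcong : ℓ ^ j ≡ d [MOD p ^ m] :=
    chebTrace_cong hp hℓ hℓp A hA σ hσ m j g d hd hζ
      (hσg ζ (le₄ (IntermediateField.mem_adjoin_simple_self ℚ ζ)))
  -- `g⁻¹ σ ^ j` fixes the level
  have hfix : ∀ x ∈ (L₁ ⊔ L₂) ⊔ (L₃ ⊔ L₄), (g⁻¹ * σ ^ j) x = x := by
    intro x hx
    rw [AlgEquiv.mul_apply, hσg x hx]
    exact g.symm_apply_apply x
  have hsplit : ∀ w : K.W, K.act (σ ^ j) w = K.act g (K.act (g⁻¹ * σ ^ j) w) := by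
    intro w
    rw [← Module.End.mul_apply, ← map_mul, mul_inv_cancel_left]
  have e1 : ∀ x : K.L0, K.act (σ ^ j) (K.κ m x) = K.act g (K.κ m x) := by
    intro x
    rw [hsplit]
    have := h₂ (g⁻¹ * σ ^ j) (fun y hy => hfix y (le₂ hy)) x
    rw [Module.End.one_apply] at this
    rw [this]
  have e2 : ∀ x : K.L0, K.act (σ ^ j)⁻¹ (K.κ m x) = K.act g⁻¹ (K.κ m x) := by
    intro x
    have h5 := h₃ (g⁻¹ * σ ^ j) (fun y hy => hfix y (le₃ hy)) x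
    have h6 : K.act (σ ^ j) (K.act g⁻¹ (K.κ m x)) = K.κ m x := by
      rw [hsplit, h5, ← Module.End.mul_apply, ← map_mul, mul_inv_cancel, map_one,
        Module.End.one_apply]
    conv_lhs => rw [← h6]
    rw [← Module.End.mul_apply, ← map_mul, inv_mul_cancel, map_one, Module.End.one_apply]
  refine ⟨lucasSeq (τ ℓ) (ℓ : 𝕋) j, fun x => ?_, ?_⟩
  · have hw : (p ^ m) • K.act g⁻¹ (K.κ m x) = 0 := by
      rw [← map_nsmul, K.pow_smul_kappa, map_zero]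
    rw [map_lucasSeq, hτ ℓ hℓ hℓT, map_natCast, K.kappa_lucas hℓ hℓbad,
      K.lucas_eq hℓ hℓbad A hA σ hσ, e1, e2, tor_nsmul_eq_of_modEq hcong hw]
  · obtain ⟨t1, -⟩ := h₁ g (σ ^ j) (fun x hx => (hσg x (le₁ hx)).symm)
    have hch := hρ ℓ hℓ hℓT A hA σ hσ
    have htr : LinearMap.trace R ρ.V (ρ.ρ (σ ^ j)) = ψ (lucasSeq (τ ℓ) (ℓ : 𝕋) j) := by
      rw [map_pow, trace_pow_eq_lucasSeq ρ.finrank_eq _ _ _ hch, map_lucasSeq, map_natCast]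
    rw [htr] at t1
    exact t1

/-- A2 -/
theorem trace_congr (hcheb : WeakChebotarev) (hp : p.Prime) (hpbad : p ∈ bad)
    (K : KSys p (↑bad : Set ℕ))
    {𝕋 : Type*} [CommRing 𝕋] (ι : 𝕋 →+* Module.End ℤ K.L0) (τ : ℕ → 𝕋)
    (hτ : ∀ ℓ : ℕ, ℓ.Prime → ℓ ∉ bad → ι (τ ℓ) = K.T0 ℓ)
    {R : Type} [CommRing R] [IsLocalRing R] (hpR : (p : R) ∈ maximalIdeal R)
    (ψ : 𝕋 →+* R) (hker : ∀ t : 𝕋, ι t = 0 → ψ t = 0)
    (ρ : GaloisRepAdic R)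
    (hρ : ∀ ℓ : ℕ, ℓ.Prime → ℓ ∉ bad → ∀ A : ValuationSubring Qbar', A.LiesOverPrime ℓ →
      ∀ σ : GQ, A.IsFrobeniusAt σ ℓ →
        LinearMap.charpoly (ρ.ρ σ) = X ^ 2 - C (ψ (τ ℓ)) * X + C (ℓ : R)) (n : ℕ) :
    ∃ m₀ : ℕ, ∀ m, m₀ ≤ m → ∀ d : GQ → ℕ,
      (∀ (g : GQ) (ζ : Qbar'), ζ ^ (p ^ m) = 1 → g ζ = ζ ^ d g) → ∀ c : GQ →₀ ℤ,
      (∀ z : K.L0, c.sum (fun g k => k • (K.act g (K.κ m z) + d g • K.act g⁻¹ (K.κ m z))) = 0) →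
      c.sum (fun g k => (k : R) * LinearMap.trace R ρ.V (ρ.ρ g)) ∈ maximalIdeal R ^ n := by
  classical
  let TT : Submodule ℤ (Module.End ℤ K.L0) := LinearMap.range ι.toAddMonoidHom.toIntLinearMap
  obtain ⟨c0, hc0⟩ := exists_saturation TT p
  refine ⟨n + c0, fun m hm d hd c hc => ?_⟩
  obtain ⟨n', hn', rfl⟩ : ∃ n', n ≤ n' ∧ m = n' + c0 := ⟨m - c0, by omega, by omega⟩
  choose t ht1 ht2 using fun g : GQ =>
    chebTrace_one hcheb hp hpbad K ι τ hτ ψ ρ hρ n (n' + c0) g (d g) (hd g)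
  set D : 𝕋 := c.sum (fun g k => (k : 𝕋) * t g) with hD
  have hιD : ∀ z : K.L0, ι D z = c.sum (fun g k => k • ι (t g) z) := by
    intro z
    rw [hD, Finsupp.sum, Finsupp.sum, map_sum, LinearMap.sum_apply]
    refine Finset.sum_congr rfl fun g _ => ?_
    rw [map_mul, map_intCast, Module.End.mul_apply, Module.End.intCast_apply]
  have hkill : ∀ z : K.L0, K.κ (n' + c0) (ι D z) = 0 := by
    intro z
    rw [hιD, Finsupp.sum, map_sum, ← hc z, Finsupp.sum]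
    refine Finset.sum_congr rfl fun g _ => ?_
    rw [map_zsmul, ht1]
  have hdiv : ∀ x : K.L0, ∃ y : K.L0, ι D x = ((p : ℤ) ^ (n' + c0)) • y := by
    intro x
    obtain ⟨y, hy⟩ := (K.κ_ker (n' + c0) _).1 (hkill x)
    refine ⟨y, ?_⟩
    rw [hy, ← Nat.cast_pow, natCast_zsmul]
  obtain ⟨D', ⟨δ, hδ⟩, hD'⟩ := hc0 n' (ι D) ⟨D, rfl⟩ hdiv
  have hδ' : ι δ = D' := hδ
  have hψD : ψ D = (p : R) ^ n' * ψ δ := by
    have h7 : ι (D - (p : 𝕋) ^ n' * δ) = 0 := by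
      rw [map_sub, map_mul, map_pow, map_natCast, hδ', hD', sub_eq_zero, ← Nat.cast_pow,
        ← Nat.cast_pow, natCast_zsmul, nsmul_eq_mul]
    have h8 := hker _ h7
    rw [map_sub, map_mul, map_pow, map_natCast, sub_eq_zero] at h8
    exact h8
  have hψDmem : ψ D ∈ maximalIdeal R ^ n := by
    rw [hψD]
    exact Ideal.pow_le_pow_right hn' (Ideal.mul_mem_right _ _ (Ideal.pow_mem_pow hpR n'))
  have hψD2 : ψ D = c.sum (fun g k => (k : R) * ψ (t g)) := by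
    rw [hD, Finsupp.sum, Finsupp.sum, map_sum]
    refine Finset.sum_congr rfl fun g _ => ?_
    rw [map_mul, map_intCast]
  have hdiff : c.sum (fun g k => (k : R) * LinearMap.trace R ρ.V (ρ.ρ g)) - ψ D
      ∈ maximalIdeal R ^ n := by
    rw [hψD2, Finsupp.sum, Finsupp.sum, ← Finset.sum_sub_distrib]
    refine Ideal.sum_mem _ fun g _ => ?_
    rw [← mul_sub]
    exact Ideal.mul_mem_left _ _ (ht2 g)
  have := Ideal.add_mem _ hdiff hψDmem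
  rwa [sub_add_cancel] at this

/-- A3 -/
theorem det_congr (hcheb : WeakChebotarev) (hp : p.Prime) (hpbad : p ∈ bad)
    {R : Type} [CommRing R] [IsLocalRing R] (hpR : (p : R) ∈ maximalIdeal R)
    (ρ : GaloisRepAdic R)
    (hρ : ∀ ℓ : ℕ, ℓ.Prime → ℓ ∉ bad → ∀ A : ValuationSubring Qbar', A.LiesOverPrime ℓ →
      ∀ σ : GQ, A.IsFrobeniusAt σ ℓ → LinearMap.det (ρ.ρ σ) = (ℓ : R))
    (n : ℕ) (g : GQ) (d : ℕ) (hd : ∀ ζ : Qbar', ζ ^ (p ^ n) = 1 → g ζ = ζ ^ d) :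
    LinearMap.det (ρ.ρ g) - (d : R) ∈ maximalIdeal R ^ n := by
  classical
  have hpos : 0 < p ^ n := pow_pos hp.pos _
  obtain ⟨L₁, hL₁, h₁⟩ := tor_exists_level ρ n
  have : NeZero ((p ^ n : ℕ) : Qbar') := ⟨Nat.cast_ne_zero.mpr hpos.ne'⟩
  obtain ⟨ζ, hζ⟩ := HasEnoughRootsOfUnity.exists_primitiveRoot Qbar' (p ^ n)
  have hint : IsIntegral ℚ ζ := (hζ.isIntegral hpos).tower_top
  have hL₄ : FiniteDimensional ℚ (IntermediateField.adjoin ℚ {ζ}) :=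
    IntermediateField.adjoin.finiteDimensional hint
  set L₄ := IntermediateField.adjoin ℚ {ζ} with hL₄def
  have hL : FiniteDimensional ℚ (L₁ ⊔ L₄ : IntermediateField ℚ Qbar') :=
    IntermediateField.finiteDimensional_sup L₁ L₄
  have le₁ : L₁ ≤ L₁ ⊔ L₄ := le_sup_left
  have le₄ : L₄ ≤ L₁ ⊔ L₄ := le_sup_right
  obtain ⟨ℓ, A, σ, j, hℓ, hℓT, hA, hσ, hσg⟩ := hcheb _ hL bad g
  have hℓp : ℓ ≠ p := fun h => hℓT (h ▸ hpbad)
  have hcong : ℓ ^ j ≡ d [MOD p ^ n] :=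
    chebTrace_cong hp hℓ hℓp A hA σ hσ n j g d hd hζ
      (hσg ζ (le₄ (IntermediateField.mem_adjoin_simple_self ℚ ζ)))
  obtain ⟨-, t2⟩ := h₁ g (σ ^ j) (fun x hx => (hσg x (le₁ hx)).symm)
  have hdet : LinearMap.det (ρ.ρ (σ ^ j)) = (ℓ : R) ^ j := by
    rw [map_pow, map_pow, hρ ℓ hℓ hℓT A hA σ hσ]
  rw [hdet] at t2
  have h9 : (ℓ : R) ^ j - (d : R) ∈ maximalIdeal R ^ n := by
    obtain ⟨k, hk⟩ := (Nat.modEq_iff_dvd).1 hcong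
    have h10 : (ℓ : R) ^ j - (d : R) = (p : R) ^ n * (-(k : R)) := by
      have := congrArg (fun z : ℤ => (z : R)) hk
      push_cast at this
      linear_combination -this
    rw [h10]
    exact Ideal.mul_mem_right _ _ (Ideal.pow_mem_pow hpR n)
  have := Ideal.add_mem _ t2 h9
  convert this using 1
  ring

end A

end Fermat.Agent.S32
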