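import Mathlib
import Fermat.Agent.S19.Defs

/-!
# S32-C1 : `HasRep` is stable under sub-`G`-modules, products and finite powers
-/

set_option autoImplicit false

namespace Fermat.Agent.S19

theorem HasRep.of_injective {A : ValuationSubring Qb} {Γ Γ' : Type} [AddCommGroup Γ]
    [AddCommGroup Γ'] {act : GQ → Γ → Γ} {act' : GQ → Γ' → Γ'} (h : HasRep A Γ act)
    (f : Γ' →+ Γ) (hf : Function.Injective f) (heq : ∀ σ x, f (act' σ x) = act σ (f x)) :
    HasRep A Γ' act' := by
  obtain ⟨m, ρ, h0, hadd, hinj, hA, hσ⟩ := h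
  refine ⟨m, fun x => ρ (f x), ?_, fun P Q => ?_, hinj.comp hf, fun P i j => hA _ i j,
    fun σ P i j => ?_⟩
  · show ρ (f 0) = 1
    rw [map_zero, h0]
  · show ρ (f (P + Q)) = ρ (f P) * ρ (f Q)
    rw [map_add, hadd]
  · show ρ (f (act' σ P)) i j = σ (ρ (f P) i j)
    rw [heq, hσ]

theorem HasRep.prod {A : ValuationSubring Qb} {Γ Γ' : Type} [AddCommGroup Γ]
    [AddCommGroup Γ'] {act : GQ → Γ → Γ} {act' : GQ → Γ' → Γ'} (h : HasRep A Γ act)
    (h' : HasRep A Γ' act') : HasRep A (Γ × Γ') (fun σ x => (act σ x.1, act' σ x.2)) := by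
  obtain ⟨m, ρ, h0, hadd, hinj, hA, hσ⟩ := h
  obtain ⟨m', ρ', h0', hadd', hinj', hA', hσ'⟩ := h'
  refine ⟨m + m', fun x => Matrix.reindex finSumFinEquiv finSumFinEquiv
    (Matrix.fromBlocks (ρ x.1) 0 0 (ρ' x.2)), ?_, ?_, ?_, ?_, ?_⟩
  · simp only [Prod.fst_zero, Prod.snd_zero, h0, h0', Matrix.fromBlocks_one]
    simp
  · intro P Q
    simp only [Prod.fst_add, Prod.snd_add, hadd, hadd', Matrix.reindex_apply]
    rw [Matrix.submatrix_mul_equiv, Matrix.fromBlocks_multiply]
    simp
  · intro x y hxy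
    have h1 := (Matrix.reindex finSumFinEquiv finSumFinEquiv).injective hxy
    rw [Matrix.fromBlocks_inj] at h1
    exact Prod.ext (hinj h1.1) (hinj' h1.2.2.2)
  · intro P i j
    simp only [Matrix.reindex_apply, Matrix.submatrix_apply]
    rcases finSumFinEquiv.symm i with a | a <;> rcases finSumFinEquiv.symm j with b | b
    · exact hA _ a b
    · exact A.zero_mem
    · exact A.zero_mem
    · exact hA' _ a b
  · intro σ P i j
    simp only [Matrix.reindex_apply, Matrix.submatrix_apply]
    rcases finSumFinEquiv.symm i with a | a <;> rcases finSumFinEquiv.symm j with b | b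
    · exact hσ σ _ a b
    · exact (map_zero σ).symm
    · exact (map_zero σ).symm
    · exact hσ' σ _ a b

theorem HasRep.closure_fin {A : ValuationSubring Qb} {Γ : Type} [AddCommGroup Γ]
    {act : GQ → Γ → Γ} (h : HasRep A Γ act) (n : ℕ) :
    HasRep A (Fin n → Γ) (fun σ x i => act σ (x i)) := by
  induction n with
  | zero =>
    refine ⟨0, fun _ => 1, rfl, fun _ _ => (mul_one _).symm, fun x y _ => Subsingleton.elim x y,
      fun _ i => i.elim0, fun _ _ i => i.elim0⟩
  | succ n ih =>
    refine (h.prod ih).of_injective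
      { toFun := fun x => (x 0, Fin.tail x)
        map_zero' := rfl
        map_add' := fun _ _ => rfl } ?_ (fun _ _ => rfl)
    intro x y hxy
    have h1 : x 0 = y 0 := congrArg Prod.fst hxy
    have h2 : Fin.tail x = Fin.tail y := congrArg Prod.snd hxy
    funext i
    refine Fin.cases h1 (fun j => ?_) i
    exact congrFun h2 j

theorem HasRep.pi {A : ValuationSubring Qb} {Γ : Type} [AddCommGroup Γ] {act : GQ → Γ → Γ}
    (h : HasRep A Γ act) (ι : Type) [Finite ι] :
    HasRep A (ι → Γ) (fun σ x i => act σ (x i)) := by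
  obtain ⟨n, ⟨e⟩⟩ := Finite.exists_equiv_fin ι
  refine (h.closure_fin n).of_injective
    { toFun := fun x i => x (e.symm i)
      map_zero' := rfl
      map_add' := fun _ _ => rfl } ?_ (fun _ _ => rfl)
  intro x y hxy
  funext i
  have := congrFun hxy (e i)
  simpa using this

end Fermat.Agent.S19
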