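/-
S32 : shared definitions (no sorry): the Galois action on `J₀(M)[n]` and the two contracts with S19.
-/
import Mathlib
import Fermat.Agent.S19.Defs
import Fermat.Prelude.Def_ModularCurve_ArithmeticGalois

set_option autoImplicit false

namespace Fermat.Agent.S32

open ModularCurve
open Fermat.Agent.S19 (HasRep HasFFModel Qb GQ)

/-- the Galois action on the `n`-torsion of `J₀(M)`. -/
noncomputable def torAct (M : ℕ) (n : ℤ) (σ : GQ) (x : Submodule.torsionBy ℤ (JZero M) n) :
    Submodule.torsionBy ℤ (JZero M) n :=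
  ⟨σ • (x : JZero M), by
    rw [Submodule.mem_torsionBy_iff]
    have h := (DistribSMul.toAddMonoidHom (JZero M) σ).map_zsmul n (x : JZero M)
    simp only [DistribSMul.toAddMonoidHom_apply] at h
    rw [← h, (Submodule.mem_torsionBy_iff _ _).1 x.2, smul_zero]⟩

@[simp] theorem coe_torAct (M : ℕ) (n : ℤ) (σ : GQ) (x : Submodule.torsionBy ℤ (JZero M) n) :
    ((torAct M n σ x : Submodule.torsionBy ℤ (JZero M) n) : JZero M) = σ • (x : JZero M) := rfl

/-- **Contract with S19**: (REP) for `J₀(M)[p^k]`. -/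
def RepContract (M p : ℕ) : Prop :=
  ∀ A : ValuationSubring Qb, A.LiesOverPrime p → ∀ k : ℕ,
    HasRep A (Submodule.torsionBy ℤ (JZero M) ((p : ℤ) ^ k)) (torAct M ((p : ℤ) ^ k))

/-- **Contract with S19** (H1): (REP) gives a finite flat model. -/
def H1Contract (p : ℕ) : Prop :=
  ∀ A : ValuationSubring Qb, A.LiesOverPrime p → ∀ (Γ : Type) [AddCommGroup Γ] [Finite Γ]
    (act : GQ → Γ → Γ), HasRep A Γ act → HasFFModel p Γ act

end Fermat.Agent.S32
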