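import Fermat.Agent.S19.H.OfRep

/-!
# S32-C2b : `HasRep` is stable under quotients

`H` = the Hopf order generated by the matrix coefficients of `ρ` (`S19/H`), `K = ker f`,
`H'' = H^K` the `K`-invariant functions of `H`.  The translation action of `Γ` on `H''` in an
`R`-basis of `H''` is the representation of `Γ / K` we want.
-/

set_option autoImplicit false
set_option linter.style.haveILetI false

noncomputable section

namespace Fermat.Agent.S19

open H

namespace QuotAux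

variable {ℓ : ℕ} [Fact ℓ.Prime] {Γ : Type} [AddCommGroup Γ] {act : GQ → Γ → Γ}

/-- the Hopf order generated by the matrix coefficients; its elements are `A`-valued. -/
theorem exists_funOrder {A : ValuationSubring Qb} (hA : A.LiesOverPrime ℓ) [Finite Γ]
    (h : HasRep A Γ act) : ∃ 𝒪 : FunOrder ℓ Γ act, ∀ f ∈ 𝒪.carrier, ∀ P, f P ∈ A := by
  obtain ⟨m, ρ, h0, hadd, hinj, hmem, heq⟩ := h
  set S : Set (Γ → Qb) := Set.range (fun p : Fin m × Fin m => fun P => ρ P p.1 p.2) with hS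
  have hSmem : ∀ i j, (fun P => ρ P i j) ∈ Algebra.adjoin (Rl ℓ) S := fun i j =>
    Algebra.subset_adjoin ⟨(i, j), rfl⟩
  refine ⟨FunOrder.mk' (ℓ := ℓ) (act := act) (Algebra.adjoin (Rl ℓ) S) ?_ ?_ ?_ ?_, ?_⟩
  · apply fg_adjoin_of_finite (Set.finite_range _)
    rintro _ ⟨p, rfl⟩
    apply isIntegral_pi
    intro P
    apply isIntegral_of_forall_mem hA
    intro σ
    rw [← heq]
    exact hmem _ _ _
  · intro f hf σ P
    refine equiv_of_mem_adjoin act ?_ hf σ P
    rintro _ ⟨p, rfl⟩ σ P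
    exact heq σ P p.1 p.2
  · intro P Q hPQ
    apply hinj
    ext i j
    exact hPQ _ (hSmem i j)
  · intro f hf
    refine comul_of_mem_adjoin ?_ hf
    rintro _ ⟨p, rfl⟩
    have : (fun z : Γ × Γ => ρ (z.1 + z.2) p.1 p.2)
        = ∑ k, fun z : Γ × Γ => ρ z.1 p.1 k * ρ z.2 k p.2 := by
      ext z
      rw [hadd, Matrix.mul_apply, Finset.sum_apply]
    rw [this]
    exact Submodule.sum_mem _ fun k _ => span₂_mk_mem (hSmem _ _) (hSmem _ _)
  · intro f hf P
    change f ∈ Algebra.adjoin (Rl ℓ) S at hf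
    induction hf using Algebra.adjoin_induction with
    | mem f hf =>
      obtain ⟨p, rfl⟩ := hf
      exact hmem _ _ _
    | algebraMap r => exact algebraMap_Rl_mem hA r
    | add f g _ _ hf hg => exact A.add_mem _ _ hf hg
    | mul f g _ _ hf hg => exact A.mul_mem _ _ hf hg

omit [AddCommGroup Γ] in
/-- a finitely generated `R`-module of equivariant functions has an `R`-basis which is linearly
independent over `ℚ̄`. -/
theorem exists_basis (hact : ∀ σ, Function.Surjective (act σ)) (M : Submodule (Rl ℓ) (Γ → Qb))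
    (hfg : M.FG) (heq : ∀ f ∈ M, ∀ (σ : GQ) (P : Γ), f (act σ P) = σ (f P)) :
    ∃ (r : ℕ) (b : Fin r → Γ → Qb), (∀ i, b i ∈ M) ∧ LinearIndependent Qb b ∧
      ∀ f ∈ M, ∃ c : Fin r → Rl ℓ, f = ∑ i, c i • b i := by
  haveI : Module.Finite (Rl ℓ) M := Module.Finite.iff_fg.mpr hfg
  haveI : Module.IsTorsionFree (Rl ℓ) M := by
    apply Module.IsTorsionFree.of_smul_eq_zero
    intro r m hrm
    by_cases hr : r = 0
    · exact Or.inl hr
    right
    apply Subtype.ext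
    ext P
    have h1 : (r • (m : Γ → Qb)) P = 0 := congrFun (congrArg Subtype.val hrm) P
    rw [Pi.smul_apply, Algebra.smul_def] at h1
    rcases mul_eq_zero.mp h1 with h2 | h2
    · exact absurd (algebraMap_Rl_injective ℓ (by rw [h2, map_zero])) hr
    · exact h2
  haveI : Module.Free (Rl ℓ) M := inferInstance
  let b := Module.finBasis (Rl ℓ) M
  refine ⟨_, fun i => (b i : Γ → Qb), fun i => (b i).2, ?_, ?_⟩
  · apply linearIndependent_of_equivariant act hact
    · intro i σ x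
      exact heq _ (b i).2 σ x
    · rw [← LinearIndependent.iff_fractionRing (Rl ℓ) ℚ]
      exact b.linearIndependent.map' M.subtype (LinearMap.ker_eq_bot.mpr Subtype.val_injective)
  · intro f hf
    refine ⟨fun i => b.repr ⟨f, hf⟩ i, ?_⟩
    have h2 : ((∑ i, b.repr ⟨f, hf⟩ i • b i : M) : Γ → Qb) = f :=
      congrArg Subtype.val (b.sum_repr ⟨f, hf⟩)
    refine h2.symm.trans ?_
    rw [Submodule.coe_sum]
    rfl

omit [Fact ℓ.Prime] [AddCommGroup Γ] in
/-- expansion of an element of `span₂ H` in a generating family of the second factor. -/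
theorem span₂_expand {H : Subalgebra (Rl ℓ) (Γ → Qb)} {n : ℕ} (e : Fin n → Γ → Qb)
    (he : ∀ f ∈ H, ∃ c : Fin n → Rl ℓ, f = ∑ i, c i • e i) {F : Γ × Γ → Qb} (hF : F ∈ span₂ H) :
    ∃ ψ : Fin n → Γ → Qb, (∀ y, ψ y ∈ H) ∧ ∀ P Q, F (P, Q) = ∑ y, ψ y P * e y Q := by
  induction hF using Submodule.span_induction with
  | mem F hF =>
    obtain ⟨a, ha, b, hb, rfl⟩ := hF
    obtain ⟨c, rfl⟩ := he b hb
    refine ⟨fun y => c y • a, fun y => H.smul_mem ha _, fun P Q => ?_⟩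
    simp only [Finset.sum_apply, Pi.smul_apply, Finset.mul_sum]
    refine Finset.sum_congr rfl fun y _ => ?_
    simp only [Algebra.smul_def]
    ring
  | zero => exact ⟨fun _ => 0, fun _ => H.zero_mem, fun P Q => by simp⟩
  | add F G _ _ hF hG =>
    obtain ⟨ψ, hψ, h1⟩ := hF
    obtain ⟨ψ', hψ', h2⟩ := hG
    refine ⟨fun y => ψ y + ψ' y, fun y => H.add_mem (hψ y) (hψ' y), fun P Q => ?_⟩
    simp only [Pi.add_apply, h1, h2, add_mul, Finset.sum_add_distrib]
  | smul r F _ hF =>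
    obtain ⟨ψ, hψ, h1⟩ := hF
    refine ⟨fun y => r • ψ y, fun y => H.smul_mem (hψ y) r, fun P Q => ?_⟩
    simp only [Pi.smul_apply, h1, Finset.smul_sum, smul_mul_assoc]

omit [Fact ℓ.Prime] [AddCommGroup Γ] in
/-- uniqueness of coefficients. -/
theorem coeff_unique {r : ℕ} {b : Fin r → Γ → Qb} (hli : LinearIndependent Qb b) {u v : Fin r → Qb}
    (h : ∀ P, ∑ j, u j * b j P = ∑ j, v j * b j P) : u = v := by
  have h0 : ∑ j, (u j - v j) • b j = 0 := by
    ext P
    simp [sub_mul, Finset.sum_sub_distrib, h P]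
  funext j
  exact sub_eq_zero.1 (Fintype.linearIndependent_iff.1 hli _ h0 j)

section main

variable (𝒪 : FunOrder ℓ Γ act) (K : AddSubgroup Γ)

/-- the `K`-invariant elements of the Hopf order. -/
def invSub : Submodule (Rl ℓ) (Γ → Qb) where
  carrier := {φ | φ ∈ 𝒪.carrier ∧ ∀ P, ∀ κ ∈ K, φ (P + κ) = φ P}
  add_mem' := by
    rintro a b ⟨ha, ha'⟩ ⟨hb, hb'⟩
    exact ⟨𝒪.carrier.add_mem ha hb, fun P κ hκ => by
      rw [Pi.add_apply, Pi.add_apply, ha' P κ hκ, hb' P κ hκ]⟩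
  zero_mem' := ⟨𝒪.carrier.zero_mem, fun _ _ _ => rfl⟩
  smul_mem' := by
    rintro c a ⟨ha, ha'⟩
    exact ⟨𝒪.carrier.smul_mem ha c, fun P κ hκ => by
      rw [Pi.smul_apply, Pi.smul_apply, ha' P κ hκ]⟩

theorem invSub_fg : (invSub 𝒪 K).FG := Submodule.FG.of_le 𝒪.fg (fun _ hφ => hφ.1)

omit [Fact ℓ.Prime] in
/-- the comultiplication of an invariant function has invariant left factors. -/
theorem comul_inv {n : ℕ} (e : Fin n → Γ → Qb) (heli : LinearIndependent Qb e)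
    (he : ∀ f ∈ 𝒪.carrier, ∃ c : Fin n → Rl ℓ, f = ∑ i, c i • e i) {φ : Γ → Qb}
    (hφ : φ ∈ invSub 𝒪 K) :
    ∃ ψ : Fin n → Γ → Qb, (∀ y, ψ y ∈ invSub 𝒪 K) ∧ ∀ P Q, φ (P + Q) = ∑ y, ψ y P * e y Q := by
  obtain ⟨ψ, hψ, h⟩ := span₂_expand e he (𝒪.comul φ hφ.1)
  have h' : ∀ P Q, φ (P + Q) = ∑ y, ψ y P * e y Q := h
  refine ⟨ψ, fun y => ⟨hψ y, fun P κ hκ => ?_⟩, h'⟩
  have h0 : ∑ y, (ψ y (P + κ) - ψ y P) • e y = 0 := by
    ext Q
    simp only [Finset.sum_apply, Pi.smul_apply, smul_eq_mul, sub_mul, Finset.sum_sub_distrib,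
      Pi.zero_apply]
    rw [← h', ← h', add_right_comm, hφ.2 _ κ hκ, sub_self]
  exact sub_eq_zero.1 (Fintype.linearIndependent_iff.1 heli _ h0 y)

omit [Fact ℓ.Prime] in
/-- translation of an invariant function, in a basis of the invariant functions. -/
theorem comul_inv' {n r : ℕ} (e : Fin n → Γ → Qb) (hemem : ∀ y, e y ∈ 𝒪.carrier)
    (heli : LinearIndependent Qb e)
    (he : ∀ f ∈ 𝒪.carrier, ∃ c : Fin n → Rl ℓ, f = ∑ i, c i • e i) (b : Fin r → Γ → Qb)
    (hb : ∀ f ∈ invSub 𝒪 K, ∃ c : Fin r → Rl ℓ, f = ∑ i, c i • b i) {φ : Γ → Qb}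
    (hφ : φ ∈ invSub 𝒪 K) :
    ∃ ν : Fin r → Γ → Qb, (∀ i, ν i ∈ 𝒪.carrier) ∧ ∀ P Q, φ (P + Q) = ∑ i, ν i Q * b i P := by
  obtain ⟨ψ, hψ, h⟩ := comul_inv 𝒪 K e heli he hφ
  choose s hs using fun y => hb (ψ y) (hψ y)
  refine ⟨fun i => ∑ y, s y i • e y,
    fun i => Subalgebra.sum_mem _ (fun y _ => 𝒪.carrier.smul_mem (hemem y) _), fun P Q => ?_⟩
  rw [h]
  calc ∑ y, ψ y P * e y Q
      = ∑ y, ∑ i, algebraMap (Rl ℓ) Qb (s y i) * b i P * e y Q := by
        refine Finset.sum_congr rfl fun y _ => ?_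
        have h1 : ψ y P = ∑ i, algebraMap (Rl ℓ) Qb (s y i) * b i P := by
          rw [hs y]
          simp [Algebra.smul_def]
        rw [h1, Finset.sum_mul]
    _ = ∑ i, ∑ y, algebraMap (Rl ℓ) Qb (s y i) * b i P * e y Q := Finset.sum_comm
    _ = ∑ i, (∑ y, s y i • e y) Q * b i P := by
        refine Finset.sum_congr rfl fun i _ => ?_
        rw [Finset.sum_apply, Finset.sum_mul]
        refine Finset.sum_congr rfl fun y _ => ?_
        rw [Pi.smul_apply, Algebra.smul_def]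
        ring

/-- the translation representation on the invariant functions. -/
theorem exists_transl [Finite Γ] :
    ∃ (r : ℕ) (b : Fin r → Γ → Qb) (N : Γ → Matrix (Fin r) (Fin r) Qb),
      (∀ i, b i ∈ invSub 𝒪 K) ∧ LinearIndependent Qb b ∧
      (∀ f ∈ invSub 𝒪 K, ∃ c : Fin r → Rl ℓ, f = ∑ i, c i • b i) ∧
      (∀ i j, (fun Q => N Q i j) ∈ 𝒪.carrier) ∧ ∀ i P Q, b i (P + Q) = ∑ j, N Q j i * b j P := by
  obtain ⟨n, e, hemem, heli, he⟩ := exists_basis 𝒪.act_surjective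
    (Subalgebra.toSubmodule 𝒪.carrier) 𝒪.fg (fun f hf => 𝒪.equiv f hf)
  obtain ⟨r, b, hbmem, hbli, hb⟩ := exists_basis 𝒪.act_surjective
    (invSub 𝒪 K) (invSub_fg 𝒪 K) (fun f hf => 𝒪.equiv f hf.1)
  choose ν hν hν' using fun i => comul_inv' 𝒪 K e hemem heli he b hb (hbmem i)
  exact ⟨r, b, fun Q => Matrix.of fun j i => ν i j Q, hbmem, hbli, hb, fun i j => hν j i,
    fun i P Q => hν' i P Q⟩

omit [Fact ℓ.Prime] in
include 𝒪 in
theorem act_inv_act (σ : GQ) (P : Γ) : act σ⁻¹ (act σ P) = P := by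
  apply 𝒪.sep
  intro f hf
  rw [𝒪.equiv f hf, 𝒪.equiv f hf]
  exact σ.symm_apply_apply _

omit [Fact ℓ.Prime] in
include 𝒪 in
theorem act_mem_iff (hK : ∀ σ κ, κ ∈ K → act σ κ ∈ K) (σ : GQ) (κ : Γ) :
    act σ κ ∈ K ↔ κ ∈ K :=
  ⟨fun h => by
    have := hK σ⁻¹ _ h
    rwa [act_inv_act 𝒪] at this, hK σ κ⟩

open Classical in
/-- the trace over `K`. -/
def tr [Fintype Γ] (φ : Γ → Qb) : Γ → Qb := fun P => ∑ κ : Γ, if κ ∈ K then φ (P + κ) else 0

open Classical in
/-- the sum of the values of `φ ∈ H` over `K` lies in `R`. -/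
theorem sum_mem_range [Fintype Γ] (hK : ∀ σ κ, κ ∈ K → act σ κ ∈ K) {φ : Γ → Qb}
    (hφ : φ ∈ 𝒪.carrier) :
    ∃ x : Rl ℓ, algebraMap (Rl ℓ) Qb x = ∑ κ : Γ, if κ ∈ K then φ κ else 0 := by
  obtain ⟨r, hr⟩ := mem_range_of_fixed (∑ κ : Γ, if κ ∈ K then φ κ else 0) (fun σ => by
    rw [map_sum]
    have h1 : ∀ κ, σ (if κ ∈ K then φ κ else 0) =
        (fun κ' => if κ' ∈ K then φ κ' else 0) (act σ κ) := by
      intro κ
      simp only [act_mem_iff 𝒪 K hK σ κ]
      split_ifs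
      · exact (𝒪.equiv φ hφ σ κ).symm
      · exact map_zero σ
    rw [Finset.sum_congr rfl (fun κ _ => h1 κ)]
    exact Equiv.sum_comp (Equiv.ofBijective (act σ) ⟨𝒪.act_injective σ, 𝒪.act_surjective σ⟩)
      (fun κ' => if κ' ∈ K then φ κ' else 0))
  have h1 : IsIntegral (Rl ℓ) r := by
    have h2 : IsIntegral (Rl ℓ) (∑ κ : Γ, if κ ∈ K then φ κ else 0) := by
      refine IsIntegral.sum _ fun κ _ => ?_
      split_ifs
      · exact 𝒪.isIntegral_apply hφ κ
      · exact isIntegral_zero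
    rw [← hr] at h2
    exact (isIntegral_algebraMap_iff (algebraMap ℚ Qb).injective).mp h2
  obtain ⟨x, hx⟩ := IsIntegrallyClosed.isIntegral_iff.mp h1
  refine ⟨x, ?_⟩
  rw [← hr, ← hx]
  rfl

/-- the trace of an element of `H` is an invariant element of `H`. -/
theorem tr_mem [Fintype Γ] (hK : ∀ σ κ, κ ∈ K → act σ κ ∈ K) {φ : Γ → Qb}
    (hφ : φ ∈ 𝒪.carrier) : tr K φ ∈ invSub 𝒪 K := by
  classical
  constructor
  · obtain ⟨n, e, hemem, heli, he⟩ := exists_basis 𝒪.act_surjective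
      (Subalgebra.toSubmodule 𝒪.carrier) 𝒪.fg (fun f hf => 𝒪.equiv f hf)
    obtain ⟨ψ, hψ, h⟩ := span₂_expand e he (𝒪.comul φ hφ)
    have h' : ∀ P Q, φ (P + Q) = ∑ y, ψ y P * e y Q := h
    choose x hx using fun y => sum_mem_range 𝒪 K hK (hemem y)
    have h2 : tr K φ = ∑ y, x y • ψ y := by
      ext P
      rw [Finset.sum_apply]
      simp only [Pi.smul_apply, Algebra.smul_def, hx, tr, h', Finset.sum_mul]
      rw [Finset.sum_comm]
      refine Finset.sum_congr rfl fun κ _ => ?_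
      split_ifs
      · exact Finset.sum_congr rfl fun y _ => mul_comm _ _
      · simp
    rw [h2]
    exact Subalgebra.sum_mem _ fun y _ => 𝒪.carrier.smul_mem (hψ y) _
  · intro P κ₀ hκ₀
    have h1 := Equiv.sum_comp (Equiv.addLeft κ₀) (fun κ => if κ ∈ K then φ (P + κ) else 0)
    rw [tr, tr, ← h1]
    refine Finset.sum_congr rfl fun κ _ => ?_
    simp only [Equiv.coe_addLeft, K.add_mem_cancel_left hκ₀, add_assoc]

omit [Fact ℓ.Prime] in
/-- Dedekind: the traces separate `Q ∉ K` from `0`. -/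
theorem exists_tr_ne [Fintype Γ] {Q : Γ} (hQ : Q ∉ K) :
    ∃ φ ∈ 𝒪.carrier, tr K φ Q ≠ tr K φ 0 := by
  classical
  by_contra! hcon
  let ev : Γ → (𝒪.carrier →* Qb) := fun P =>
    { toFun := fun φ => (φ : Γ → Qb) P, map_one' := rfl, map_mul' := fun _ _ => rfl }
  have hinj : Function.Injective ev := by
    intro P P' h
    apply 𝒪.sep
    intro f hf
    exact DFunLike.congr_fun h (⟨f, hf⟩ : 𝒪.carrier)
  have li : LinearIndependent Qb (fun P => (ev P : 𝒪.carrier → Qb)) :=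
    (linearIndependent_monoidHom 𝒪.carrier Qb).comp ev hinj
  let g : Γ → Qb := fun P => (if P - Q ∈ K then 1 else 0) - (if P ∈ K then 1 else 0)
  have h0 : ∑ P, g P • (ev P : 𝒪.carrier → Qb) = 0 := by
    ext φ
    have h1 := hcon φ φ.2
    have h2 := Equiv.sum_comp (Equiv.addLeft Q) (fun P => if P - Q ∈ K then (φ : Γ → Qb) P else 0)
    simp only [Equiv.coe_addLeft, add_sub_cancel_left] at h2
    rw [tr, tr, h2] at h1
    simp only [zero_add] at h1
    rw [Finset.sum_apply, Pi.zero_apply]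
    have h3 : ∀ P, (g P • (ev P : 𝒪.carrier → Qb)) φ =
        (if P - Q ∈ K then (φ : Γ → Qb) P else 0) - (if P ∈ K then (φ : Γ → Qb) P else 0) := by
      intro P
      change g P * (φ : Γ → Qb) P = _
      simp only [g, sub_mul, ite_mul, one_mul, zero_mul]
    rw [Finset.sum_congr rfl (fun P _ => h3 P), Finset.sum_sub_distrib, h1, sub_self]
  have h4 := Fintype.linearIndependent_iff.1 li g h0 0
  simp only [g, zero_sub, neg_mem_iff, hQ, if_false, K.zero_mem, if_true] at h4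
  exact one_ne_zero (neg_eq_zero.1 h4)

end main

end QuotAux

theorem HasRep.of_surjective {ℓ : ℕ} (hℓ : ℓ.Prime) {A : ValuationSubring Qb}
    (hA : A.LiesOverPrime ℓ) {Γ Γ' : Type} [AddCommGroup Γ] [Finite Γ] [AddCommGroup Γ']
    {act : GQ → Γ → Γ} {act' : GQ → Γ' → Γ'} (h : HasRep A Γ act)
    (f : Γ →+ Γ') (hf : Function.Surjective f) (heq : ∀ σ x, f (act σ x) = act' σ (f x)) :
    HasRep A Γ' act' := by
  haveI : Fact ℓ.Prime := ⟨hℓ⟩
  haveI := Fintype.ofFinite Γ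
  obtain ⟨𝒪, hval⟩ := QuotAux.exists_funOrder hA h
  set K : AddSubgroup Γ := f.ker with hKdef
  have hK : ∀ σ κ, κ ∈ K → act σ κ ∈ K := by
    intro σ κ hκ
    rw [hKdef, AddMonoidHom.mem_ker] at hκ ⊢
    rw [heq, hκ, ← map_zero f, ← heq, 𝒪.act_zero]
  obtain ⟨r, b, N, hbmem, hbli, hb, hN, hT⟩ := QuotAux.exists_transl 𝒪 K
  have hN0 : N 0 = 1 := by
    ext j i
    refine congrFun (QuotAux.coeff_unique hbli (u := fun j => N 0 j i)
      (v := fun j => (1 : Matrix (Fin r) (Fin r) Qb) j i) fun P => ?_) j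
    rw [← hT i P 0, add_zero]
    simp [Matrix.one_apply]
  have hNadd : ∀ Q Q', N (Q + Q') = N Q * N Q' := by
    intro Q Q'
    ext j i
    refine congrFun (QuotAux.coeff_unique hbli (u := fun j => N (Q + Q') j i)
      (v := fun j => (N Q * N Q') j i) fun P => ?_) j
    rw [← hT i P (Q + Q'), ← add_assoc, hT i (P + Q) Q']
    simp only [hT _ P Q, Matrix.mul_apply, Finset.mul_sum, Finset.sum_mul]
    rw [Finset.sum_comm]
    exact Finset.sum_congr rfl fun j _ => Finset.sum_congr rfl fun k _ => by ring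
  have hNK : ∀ Q Q', f Q = f Q' → N Q = N Q' := by
    intro Q Q' hQ
    have hκ : Q - Q' ∈ K := by rw [hKdef, AddMonoidHom.mem_ker, map_sub, hQ, sub_self]
    ext j i
    refine congrFun (QuotAux.coeff_unique hbli (u := fun j => N Q j i)
      (v := fun j => N Q' j i) fun P => ?_) j
    rw [← hT i P Q, ← hT i P Q', ← (hbmem i).2 (P + Q') (Q - Q') hκ]
    congr 1
    abel
  have hfaith : ∀ Q, N Q = 1 → Q ∈ K := by
    intro Q hQ
    by_contra hQK
    obtain ⟨φ, hφ, hne⟩ := QuotAux.exists_tr_ne 𝒪 K hQK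
    obtain ⟨c, hc⟩ := hb _ (QuotAux.tr_mem 𝒪 K hK hφ)
    apply hne
    have hbi : ∀ i, b i Q = b i 0 := by
      intro i
      have h1 := hT i 0 Q
      rw [zero_add, hQ] at h1
      rw [h1]
      simp [Matrix.one_apply]
    rw [hc]
    simp only [Finset.sum_apply, Pi.smul_apply, hbi]
  have hρ : ∀ Q, N (Function.surjInv hf (f Q)) = N Q :=
    fun Q => hNK _ _ (Function.surjInv_eq hf (f Q))
  refine ⟨r, fun x => N (Function.surjInv hf x), ?_, ?_, ?_, ?_, ?_⟩
  · change N (Function.surjInv hf 0) = 1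
    rw [← map_zero f, hρ, hN0]
  · intro x y
    obtain ⟨P, rfl⟩ := hf x
    obtain ⟨Q, rfl⟩ := hf y
    change N (Function.surjInv hf (f P + f Q)) =
      N (Function.surjInv hf (f P)) * N (Function.surjInv hf (f Q))
    rw [← map_add, hρ, hρ, hρ, hNadd]
  · intro x y hxy
    obtain ⟨P, rfl⟩ := hf x
    obtain ⟨Q, rfl⟩ := hf y
    change N (Function.surjInv hf (f P)) = N (Function.surjInv hf (f Q)) at hxy
    rw [hρ, hρ] at hxy
    have h1 : N (P - Q) = 1 := by
      rw [sub_eq_add_neg, hNadd, hxy, ← hNadd, add_neg_cancel, hN0]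
    have h2 := hfaith _ h1
    rwa [hKdef, AddMonoidHom.mem_ker, map_sub, sub_eq_zero] at h2
  · intro x i j
    exact hval _ (hN i j) _
  · intro σ x i j
    obtain ⟨P, rfl⟩ := hf x
    change N (Function.surjInv hf (act' σ (f P))) i j = σ (N (Function.surjInv hf (f P)) i j)
    rw [← heq, hρ, hρ]
    exact 𝒪.equiv _ (hN i j) σ P

end Fermat.Agent.S19

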