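/-
S32-D (abstract part) : the divisor `(1/n) div (u ^ n)` of a Kummer element `u` over a function field `F ⊆ E`.
-/
import Mathlib
import Fermat.Agent.GAL.FF.DegPrincipal
import Fermat.Prelude.Def_AlgebraicCurve_BaseChangeGalois

set_option autoImplicit false

namespace Fermat.Agent.S32

open AlgebraicCurve Fermat.Agent.S24.FF Fermat.Agent.GAL.FF

variable {K E : Type*} [Field K] [Field E] [Algebra K E] {F : IntermediateField K E}

/-- `D = (1/n) div (u ^ n)` for some `n ≠ 0` with `u ^ n ∈ F` -/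
def IsDivOf (F : IntermediateField K E) (u : E) (D : Divisor K F) : Prop :=
  u ≠ 0 ∧ ∃ n : ℕ, n ≠ 0 ∧ ∃ hf : u ^ n ∈ F, ∀ P : Place K F, (n : ℤ) * D P = P.ord ⟨u ^ n, hf⟩

theorem IsDivOf.ne_zero {u : E} {D : Divisor K F} (h : IsDivOf F u D) : u ≠ 0 := h.1

/-- the defining relation holds for every exponent -/
theorem IsDivOf.spec {u : E} {D : Divisor K F} (h : IsDivOf F u D) (n' : ℕ) (hf' : u ^ n' ∈ F)
    (P : Place K F) : (n' : ℤ) * D P = P.ord ⟨u ^ n', hf'⟩ := by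
  obtain ⟨-, n, hn, hf, hD⟩ := h
  have hn' : (n : ℤ) ≠ 0 := by exact_mod_cast hn
  apply mul_left_cancel₀ hn'
  have e : (⟨u ^ n, hf⟩ : F) ^ n' = (⟨u ^ n', hf'⟩ : F) ^ n :=
    Subtype.ext (by
      show (u ^ n) ^ n' = (u ^ n') ^ n
      rw [← pow_mul, ← pow_mul, mul_comm])
  have h1 := congrArg P.ord e
  rw [ord_pow, ord_pow, ← hD P] at h1
  rw [← h1]
  ring

theorem IsDivOf.unique {u : E} {D D' : Divisor K F} (h : IsDivOf F u D) (h' : IsDivOf F u D') :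
    D = D' := by
  obtain ⟨-, n, hn, hf, hD⟩ := h
  have hn' : (n : ℤ) ≠ 0 := by exact_mod_cast hn
  ext P
  apply mul_left_cancel₀ hn'
  rw [hD P, h'.spec n hf P]

theorem IsDivOf.mul {u v : E} {D D' : Divisor K F} (h : IsDivOf F u D) (h' : IsDivOf F v D') :
    IsDivOf F (u * v) (D + D') := by
  obtain ⟨hu0, n, hn, hf, -⟩ := id h
  obtain ⟨hv0, n', hn', hf', -⟩ := id h'
  have h1 : u ^ (n * n') ∈ F := by rw [pow_mul]; exact pow_mem hf n'
  have h2 : v ^ (n * n') ∈ F := by rw [mul_comm, pow_mul]; exact pow_mem hf' n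
  have h3 : (u * v) ^ (n * n') ∈ F := by rw [mul_pow]; exact mul_mem h1 h2
  refine ⟨mul_ne_zero hu0 hv0, n * n', mul_ne_zero hn hn', h3, fun P => ?_⟩
  have e : (⟨(u * v) ^ (n * n'), h3⟩ : F) = ⟨u ^ (n * n'), h1⟩ * ⟨v ^ (n * n'), h2⟩ :=
    Subtype.ext (mul_pow u v _)
  have e1 : (⟨u ^ (n * n'), h1⟩ : F) ≠ 0 := fun e => pow_ne_zero _ hu0 (congrArg Subtype.val e)
  have e2 : (⟨v ^ (n * n'), h2⟩ : F) ≠ 0 := fun e => pow_ne_zero _ hv0 (congrArg Subtype.val e)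
  rw [e, P.ord_mul e1 e2, ← h.spec _ h1 P, ← h'.spec _ h2 P, Finsupp.add_apply, mul_add]

theorem isDivOf_of_mem [IsFF1 K F] {u : E} (hu : u ∈ F) (hu0 : u ≠ 0) :
    IsDivOf F u (divOf K (⟨u, hu⟩ : F)) := by
  refine ⟨hu0, 1, one_ne_zero, by rw [pow_one]; exact hu, fun P => ?_⟩
  rw [divOf_apply, Nat.cast_one, one_mul]
  congr 1
  exact Subtype.ext (pow_one u).symm

theorem exists_isDivOf [IsFF1 K F] {u : E} (hu0 : u ≠ 0) {n : ℕ} (hn : n ≠ 0) (hf : u ^ n ∈ F)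
    (hd : ∀ P : Place K F, (n : ℤ) ∣ P.ord ⟨u ^ n, hf⟩) : ∃ D : Divisor K F, IsDivOf F u D := by
  refine ⟨Finsupp.ofSupportFinite (fun P => P.ord (⟨u ^ n, hf⟩ : F) / n)
    ((finite_support_ord (K := K) (⟨u ^ n, hf⟩ : F)).subset ?_), hu0, n, hn, hf, fun P => ?_⟩
  · intro P hP h0
    simp only [Function.mem_support] at hP
    exact hP (by rw [h0, Int.zero_ediv])
  · exact Int.mul_ediv_cancel' (hd P)

theorem IsDivOf.degree_eq_zero [IsAlgClosed K] [IsFF1 K F] {u : E} {D : Divisor K F}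
    (h : IsDivOf F u D) : Divisor.degree D = 0 := by
  obtain ⟨-, n, hn, hf, hD⟩ := h
  have hn' : (n : ℤ) ≠ 0 := by exact_mod_cast hn
  have e : (n : ℤ) • D = divOf K (⟨u ^ n, hf⟩ : F) := by
    ext P
    rw [Finsupp.smul_apply, smul_eq_mul, hD P, divOf_apply]
  have h1 := congrArg Divisor.degree e
  rw [map_zsmul, degree_divOf, smul_eq_mul] at h1
  exact (mul_eq_zero.1 h1).resolve_left hn'

/-- if the divisor of `u` is principal then `u ∈ F` -/
theorem IsDivOf.mem_of_principal [IsAlgClosed K] [IsFF1 K F] {u : E} {D : Divisor K F}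
    (h : IsDivOf F u D) (hD : D ∈ Divisor.principal (K := K) (F := F)) : u ∈ F := by
  obtain ⟨f, hf0, hfD⟩ := hD
  obtain ⟨hu0, n, hn, hf, hD⟩ := h
  -- `w = u ^ n / f ^ n` has no zeros and poles
  have hw : ∀ P : Place K F, 0 ≤ P.ord ((⟨u ^ n, hf⟩ : F) * (f ^ n)⁻¹) := by
    intro P
    have e1 : (⟨u ^ n, hf⟩ : F) ≠ 0 := fun e => pow_ne_zero _ hu0 (congrArg Subtype.val e)
    rw [P.ord_mul e1 (inv_ne_zero (pow_ne_zero _ hf0)), P.ord_inv, ord_pow, ← hD P, hfD P, add_neg_cancel]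
  obtain ⟨c, hc⟩ := mem_range_of_forall_ord_nonneg hw
  have hf0' : (f : E) ≠ 0 := fun e => hf0 (Subtype.ext e)
  have h1 : (u * (f : E)⁻¹) ^ n = algebraMap K E c := by
    have := congrArg (Subtype.val) hc
    rw [mul_pow, inv_pow]
    exact this.symm
  have h2 : IsIntegral K (u * (f : E)⁻¹) := by
    refine IsIntegral.of_pow (Nat.pos_of_ne_zero hn) ?_
    rw [h1]
    exact isIntegral_algebraMap
  have h3 : (minpoly K (u * (f : E)⁻¹)).degree = 1 :=
    IsAlgClosed.degree_eq_one_of_irreducible K (minpoly.irreducible h2)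
  obtain ⟨d, hd⟩ := minpoly.mem_range_of_degree_eq_one K _ h3
  have h4 : u = algebraMap K E d * f := by
    rw [hd, mul_assoc, inv_mul_cancel₀ hf0', mul_one]
  rw [h4]
  exact mul_mem (F.algebraMap_mem d) f.2

/-- semilinear automorphisms -/
theorem IsDivOf.smul {u : E} {D : Divisor K F} (h : IsDivOf F u D) (g : SemilinearAut K F)
    (s : E →+* E) (hs : ∀ x : F, ((g • x : F) : E) = s x) : IsDivOf F (s u) (g • D) := by
  obtain ⟨hu0, n, hn, hf, hD⟩ := h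
  have e0 : s u ^ n = ((g • (⟨u ^ n, hf⟩ : F) : F) : E) := by rw [hs, map_pow]
  have hmem : s u ^ n ∈ F := by rw [e0]; exact (g • (⟨u ^ n, hf⟩ : F) : F).2
  refine ⟨fun e => hu0 (s.injective (by rw [e, map_zero])), n, hn, hmem, fun P => ?_⟩
  have e1 : (⟨s u ^ n, hmem⟩ : F) = g • (⟨u ^ n, hf⟩ : F) := Subtype.ext e0
  have e2 : P = g • (g⁻¹ • P) := by rw [smul_inv_smul]
  rw [SemilinearAut.divisor_smul_apply, hD, e1]
  conv_rhs => rw [e2]
  rw [SemilinearAut.ord_smul]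

end Fermat.Agent.S32
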