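/-
S32-D : the dictionary  Kummer classes -> divisor classes :  `j : SS 𝒜 →+ JZero M`, injective and Galois equivariant.
-/
import Mathlib
import Fermat.Agent.S32.DictAbs
import Fermat.Agent.GR.CB.Main
import Fermat.Agent.S24.Mod.Degree

set_option autoImplicit false

namespace Fermat.Agent.S32

open AlgebraicCurve ModularCurve Fermat.Agent.GAL Fermat.Agent.GR.CB

/-- the class of a divisor `D = (1/n) div (u ^ n)` -/
noncomputable def dictCls {M : ℕ} [NeZero M] {u : LaurentSeries Qb} {D : Divisor Qb (FL Qb M)}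
    (h : IsDivOf (FL Qb M) u D) : JZero M :=
  Pic0.mk ⟨D, h.degree_eq_zero⟩

theorem dict_exists_isDivOf {M p : ℕ} [NeZero M] (hp : p.Prime) (𝒜 : AnFamily M p) {u : UU}
    (hu : u ∈ VV 𝒜) : ∃ D : Divisor Qb (FL Qb M), IsDivOf (FL Qb M) (u : LaurentSeries Qb) D := by
  obtain ⟨m, h0, hf, hd⟩ := exists_isKum_of_mem_VV 𝒜 hu
  exact exists_isDivOf h0 (pow_ne_zero m hp.ne_zero) hf hd

/-- the class only depends on `cls M u` -/
theorem dictCls_eq {M : ℕ} [NeZero M] {u v : UU} {D D' : Divisor Qb (FL Qb M)}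
    (h : IsDivOf (FL Qb M) (u : LaurentSeries Qb) D) (h' : IsDivOf (FL Qb M) (v : LaurentSeries Qb) D')
    (huv : cls M u = cls M v) : dictCls h = dictCls h' := by
  have hw : u⁻¹ * v ∈ FLU M := by
    rw [← cls_eq_zero_iff, cls_mul, cls_inv, huv, neg_add_cancel]
  have hw' : ((u⁻¹ * v : UU) : LaurentSeries Qb) ∈ FL Qb M := hw
  have h1 := h.mul (isDivOf_of_mem hw' (Units.ne_zero _))
  rw [← Units.val_mul, mul_inv_cancel_left] at h1
  have h2 := h'.unique h1
  symm
  refine (QuotientAddGroup.eq_iff_sub_mem).2 ?_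
  rw [AddSubgroup.mem_addSubgroupOf]
  refine ⟨⟨_, hw'⟩, fun e => Units.ne_zero (u⁻¹ * v) (congrArg Subtype.val e), fun P => ?_⟩
  show D' P - D P = _
  rw [h2, Finsupp.add_apply, add_sub_cancel_left]
  rfl

theorem dictCls_eq_zero_iff {M : ℕ} [NeZero M] {u : LaurentSeries Qb} {D : Divisor Qb (FL Qb M)}
    (h : IsDivOf (FL Qb M) u D) : dictCls h = 0 ↔ u ∈ FL Qb M := by
  constructor
  · intro h0
    have h1 := (QuotientAddGroup.eq_zero_iff _).1 h0
    rw [AddSubgroup.mem_addSubgroupOf] at h1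
    exact h.mem_of_principal h1
  · intro hu
    have h1 := h.unique (isDivOf_of_mem hu h.ne_zero)
    refine (QuotientAddGroup.eq_zero_iff _).2 ?_
    rw [AddSubgroup.mem_addSubgroupOf]
    exact ⟨⟨u, hu⟩, fun e => h.ne_zero (congrArg Subtype.val e), fun P => by
      show D P = _
      rw [h1]; rfl⟩

theorem exists_dict {M p : ℕ} [NeZero M] (hp : p.Prime) (𝒜 : AnFamily M p) :
    ∃ j : SS 𝒜 →+ JZero M, Function.Injective j ∧
      ∀ (σ : GQ) (x : SS 𝒜), j (actS 𝒜 σ x) = σ • j x := by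
  classical
  -- choices
  have hex : ∀ x : SS 𝒜, ∃ (u : UU) (D : Divisor Qb (FL Qb M)),
      cls M u = (x : AA M) ∧ IsDivOf (FL Qb M) (u : LaurentSeries Qb) D := by
    intro x
    obtain ⟨u, hu, hx⟩ := exists_cls_eq 𝒜 x
    obtain ⟨D, hD⟩ := dict_exists_isDivOf hp 𝒜 hu
    exact ⟨u, D, hx, hD⟩
  choose U DD hU hDD using hex
  have hspec : ∀ (x : SS 𝒜) (u : UU) (D : Divisor Qb (FL Qb M))
      (h : IsDivOf (FL Qb M) (u : LaurentSeries Qb) D), cls M u = (x : AA M) →
      dictCls (hDD x) = dictCls h := fun x u D h hx => dictCls_eq (hDD x) h ((hU x).trans hx.symm)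
  refine ⟨AddMonoidHom.mk' (fun x => dictCls (hDD x)) ?_, ?_, ?_⟩
  · intro x y
    have h1 := (hDD x).mul (hDD y)
    rw [← Units.val_mul] at h1
    rw [hspec (x + y) (U x * U y) _ h1 (by rw [cls_mul, hU, hU]; rfl)]
    rfl
  · rw [injective_iff_map_eq_zero]
    intro x hx
    have h1 : U x ∈ FLU M := (dictCls_eq_zero_iff (hDD x)).1 hx
    apply Subtype.ext
    rw [← hU x, cls_eq_zero_iff.2 h1]
    rfl
  · intro σ x
    have h1 := (hDD x).smul (arithmeticGalois (L := Qb) (modularFunctionFieldFull M) σ) (galS σ)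
      (fun y => coe_arithmeticGalois_smul _ σ y)
    have h2 : IsDivOf (FL Qb M) ((galU σ (U x) : UU) : LaurentSeries Qb) _ := h1
    show dictCls (hDD (actS 𝒜 σ x)) = σ • dictCls (hDD x)
    rw [hspec (actS 𝒜 σ x) (galU σ (U x)) _ h2 (by rw [coe_actS, ← hU x, gA_cls])]
    rfl

end Fermat.Agent.S32
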