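/-
S32-A1 : `g + d g⁻¹` commutes with Galois on torsion classes (weak Chebotarev).
-/
import Mathlib
import Fermat.Agent.TOR.AdicMaster

set_option autoImplicit false

namespace Fermat.Agent.S32

open Fermat.Agent.GR.Adic Fermat.Agent.TOR IsLocalRing Polynomial
open Fermat.Agent.GR.Asm (WeakChebotarev)

local notation "Qbar'" => AlgebraicClosure ℚ

theorem central_commute_lucasSeq {A : Type*} [Ring A] {t d x : A} (ht : Commute t x)
    (hd : Commute d x) (j : ℕ) : Commute (lucasSeq t d j) x := by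
  induction j using Nat.strong_induction_on with
  | _ j ih =>
    match j with
    | 0 => exact Commute.ofNat_left 2 x
    | 1 => exact ht
    | (i + 2) =>
      rw [lucasSeq_add_two]
      exact (ht.mul_left (ih (i + 1) (by omega))).sub_left (hd.mul_left (ih i (by omega)))

section A

variable {p : ℕ} {bad : Finset ℕ}

/-- A1 -/
theorem central (hcheb : WeakChebotarev) (hp : p.Prime) (hpbad : p ∈ bad)
    (K : KSys p (↑bad : Set ℕ))
    (hTact : ∀ ℓ : ℕ, ℓ.Prime → ℓ ∉ bad → ∀ σ : GQ, Commute (K.T ℓ) (K.act σ))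
    (m : ℕ) (w : K.W) (hw : (p ^ m) • w = 0) (g h : GQ) (d : ℕ)
    (hd : ∀ ζ : Qbar', ζ ^ (p ^ m) = 1 → g ζ = ζ ^ d) :
    K.act g (K.act h w) + d • K.act g⁻¹ (K.act h w) = K.act h (K.act g w + d • K.act g⁻¹ w) := by
  classical
  have hpos : 0 < p ^ m := pow_pos hp.pos _
  obtain ⟨L₁, hL₁, h₁⟩ := K.exists_level
    {w, K.act h w, K.act g⁻¹ w, K.act g⁻¹ (K.act h w)} (by simp)
  have : NeZero ((p ^ m : ℕ) : Qbar') := ⟨Nat.cast_ne_zero.mpr hpos.ne'⟩
  obtain ⟨ζ, hζ⟩ := HasEnoughRootsOfUnity.exists_primitiveRoot Qbar' (p ^ m)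
  have hint : IsIntegral ℚ ζ := (hζ.isIntegral hpos).tower_top
  have hL₄ : FiniteDimensional ℚ (IntermediateField.adjoin ℚ {ζ}) :=
    IntermediateField.adjoin.finiteDimensional hint
  set L₄ := IntermediateField.adjoin ℚ {ζ} with hL₄def
  have hL : FiniteDimensional ℚ (L₁ ⊔ L₄ : IntermediateField ℚ Qbar') :=
    IntermediateField.finiteDimensional_sup L₁ L₄
  have le₁ : L₁ ≤ L₁ ⊔ L₄ := le_sup_left
  have le₄ : L₄ ≤ L₁ ⊔ L₄ := le_sup_right
  obtain ⟨ℓ, A, σ, j, hℓ, hℓT, hA, hσ, hσg⟩ := hcheb _ hL bad g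
  have hℓbad : ℓ ∉ (↑bad : Set ℕ) := by simpa using hℓT
  have hℓp : ℓ ≠ p := fun h => hℓT (h ▸ hpbad)
  -- the cyclotomic congruence
  have hcong : ℓ ^ j ≡ d [MOD p ^ m] := by
    have e1 : ζ ^ (ℓ ^ j) = g ζ := by
      rw [← tor_frobenius_pow_root A hp hℓ hℓp hA σ hσ m hζ.pow_eq_one j]
      exact hσg ζ (le₄ (IntermediateField.mem_adjoin_simple_self ℚ ζ))
    have e2 : ζ ^ d = g ζ := (hd ζ hζ.pow_eq_one).symm
    have hfin : IsOfFinOrder ζ := isOfFinOrder_iff_pow_eq_one.mpr ⟨p ^ m, hpos, hζ.pow_eq_one⟩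
    have := hfin.pow_eq_pow_iff_modEq.mp (e1.trans e2.symm)
    rwa [← hζ.eq_orderOf] at this
  -- `g⁻¹ σ ^ j` fixes the level
  have hfix : FixesLevel L₁ (g⁻¹ * σ ^ j) := by
    intro x hx
    rw [AlgEquiv.mul_apply, hσg x (le₁ hx)]
    exact g.symm_apply_apply x
  have hsplit : ∀ u : K.W, K.act (σ ^ j) u = K.act g (K.act (g⁻¹ * σ ^ j) u) := by
    intro u
    rw [← Module.End.mul_apply, ← map_mul, mul_inv_cancel_left]
  -- the key identity
  have key : ∀ u : K.W, (p ^ m) • u = 0 → K.act (g⁻¹ * σ ^ j) u = u →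
      K.act (g⁻¹ * σ ^ j) (K.act g⁻¹ u) = K.act g⁻¹ u →
      K.act g u + d • K.act g⁻¹ u = lucasSeq (K.T ℓ) (ℓ : Module.End ℤ K.W) j u := by
    intro u hu h2 h3
    have e1 : K.act (σ ^ j) u = K.act g u := by rw [hsplit, h2]
    have e2 : K.act (σ ^ j)⁻¹ u = K.act g⁻¹ u := by
      have h6 : K.act (σ ^ j) (K.act g⁻¹ u) = u := by
        rw [hsplit, h3, ← Module.End.mul_apply, ← map_mul, mul_inv_cancel, map_one,
          Module.End.one_apply]
      conv_lhs => rw [← h6]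
      rw [← Module.End.mul_apply, ← map_mul, inv_mul_cancel, map_one, Module.End.one_apply]
    have hu' : (p ^ m) • K.act g⁻¹ u = 0 := by rw [← map_nsmul, hu, map_zero]
    rw [K.lucas_eq hℓ hℓbad A hA σ hσ, e1, e2, tor_nsmul_eq_of_modEq hcong hu']
  have hhw : (p ^ m) • K.act h w = 0 := by rw [← map_nsmul, hw, map_zero]
  have k1 := key w hw (h₁ _ hfix _ (by simp)) (h₁ _ hfix _ (by simp))
  have k2 := key (K.act h w) hhw (h₁ _ hfix _ (by simp)) (h₁ _ hfix _ (by simp))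
  have hcomm : Commute (lucasSeq (K.T ℓ) (ℓ : Module.End ℤ K.W) j) (K.act h) :=
    central_commute_lucasSeq (hTact ℓ hℓ hℓT h) (Nat.cast_commute ℓ _) j
  rw [k1, k2, ← Module.End.mul_apply, ← Module.End.mul_apply, hcomm.eq]

end A

end Fermat.Agent.S32
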