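/-
S32, packages A0, A4, A5 : three small lemmas for the weak Chebotarev block.
-/
import Mathlib
import Fermat.Agent.TOR.AdicMaster

set_option autoImplicit false

namespace Fermat.Agent.S32

open Fermat.Agent.GR.Adic Fermat.Agent.TOR IsLocalRing Polynomial

local notation "Qbar'" => AlgebraicClosure ℚ

section A

variable {p : ℕ} {bad : Finset ℕ}

/-- the orbit of a smooth vector is finite -/
theorem chebSmall_finite_orbit (K : KSys p (↑bad : Set ℕ)) (w : K.W) :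
    (Set.range fun g : GQ => K.act g w).Finite := by
  classical
  obtain ⟨L, hL, hfix⟩ := K.smooth w
  let r : GQ → (L →ₐ[ℚ] Qbar') := fun g => (g : Qbar' →ₐ[ℚ] Qbar').comp L.val
  have hr : ∀ g g' : GQ, r g = r g' → K.act g w = K.act g' w := by
    intro g g' h
    have h1 : FixesLevel L (g⁻¹ * g') := by
      intro x hx
      have h2 : g x = g' x := DFunLike.congr_fun h (⟨x, hx⟩ : L)
      show g⁻¹ (g' x) = x
      rw [← h2]
      exact g.symm_apply_apply x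
    have h3 := hfix _ h1
    calc K.act g w = K.act g (K.act (g⁻¹ * g') w) := by rw [h3]
      _ = K.act g' w := by
        rw [← Module.End.mul_apply, ← map_mul, mul_inv_cancel_left]
  let F : (L →ₐ[ℚ] Qbar') → K.W := fun φ => if h : ∃ g, r g = φ then K.act h.choose w else 0
  refine (Set.finite_range F).subset ?_
  rintro _ ⟨g, rfl⟩
  have hex : ∃ g', r g' = r g := ⟨g, rfl⟩
  refine ⟨r g, ?_⟩
  show (if h : ∃ g', r g' = r g then K.act h.choose w else 0) = K.act g w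
  rw [dif_pos hex]
  exact hr _ _ hex.choose_spec

/-- A0 -/
theorem exists_gens (K : KSys p (↑bad : Set ℕ)) (m : ℕ) :
    ∃ (n : ℕ) (x : Fin n → K.W), (∀ i, (p ^ m) • x i = 0) ∧
      (∀ (g : GQ) i, ∃ j, K.act g (x i) = x j) ∧
      ∀ z : K.L0, K.κ m z ∈ Submodule.span ℤ (Set.range x) := by
  classical
  let b := Module.Free.chooseBasis ℤ K.L0
  set S0 : Set K.W := ⋃ i, Set.range fun g : GQ => K.act g (K.κ m (b i)) with hS0
  have hfin : S0.Finite := Set.finite_iUnion fun i => chebSmall_finite_orbit K _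
  have hmem : ∀ w, w ∈ S0 ↔ ∃ i g, K.act g (K.κ m (b i)) = w := by
    intro w
    simp only [hS0, Set.mem_iUnion, Set.mem_range]
  have : Finite S0 := hfin
  obtain ⟨n, ⟨e⟩⟩ := Finite.exists_equiv_fin S0
  have hx : ∀ w ∈ S0, ∃ j, w = (e.symm j : K.W) := fun w hw =>
    ⟨e ⟨w, hw⟩, by rw [Equiv.symm_apply_apply]⟩
  refine ⟨n, fun j => (e.symm j : K.W), fun j => ?_, fun g j => ?_, fun z => ?_⟩
  · obtain ⟨i, g, hg⟩ := (hmem _).1 (e.symm j).2
    beta_reduce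
    rw [← hg, ← map_nsmul, K.pow_smul_kappa, map_zero]
  · obtain ⟨i, g', hg⟩ := (hmem _).1 (e.symm j).2
    apply hx
    rw [hmem]
    refine ⟨i, g * g', ?_⟩
    beta_reduce
    rw [← hg, map_mul, Module.End.mul_apply]
  · have hz : z = ∑ i, b.repr z i • b i := (b.sum_repr z).symm
    rw [hz, map_sum]
    refine Submodule.sum_mem _ fun i _ => ?_
    rw [map_zsmul]
    refine Submodule.smul_mem _ _ (Submodule.subset_span ?_)
    obtain ⟨j, hj⟩ := hx (K.κ m (b i)) ((hmem _).2 ⟨i, 1, by rw [map_one, Module.End.one_apply]⟩)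
    exact ⟨j, hj.symm⟩

/-- A4 -/
theorem exists_cyc (hp : p.Prime) (m : ℕ) : ∃ d : GQ → ℕ,
    (∀ (g : GQ) (ζ : Qbar'), ζ ^ (p ^ m) = 1 → g ζ = ζ ^ d g) ∧
    (∀ g, d g * d g⁻¹ ≡ 1 [MOD p ^ m]) ∧ ∀ g h, d (g * h) ≡ d g * d h [MOD p ^ m] := by
  classical
  have hpos : 0 < p ^ m := pow_pos hp.pos m
  have : NeZero (p ^ m) := ⟨hpos.ne'⟩
  obtain ⟨ζ₀, hζ₀⟩ := HasEnoughRootsOfUnity.exists_primitiveRoot Qbar' (p ^ m)
  have hex : ∀ g : GQ, ∃ i : ℕ, ζ₀ ^ i = g ζ₀ := by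
    intro g
    have h1 : (g ζ₀) ^ (p ^ m) = 1 := by rw [← map_pow, hζ₀.pow_eq_one, map_one]
    obtain ⟨i, -, hi⟩ := hζ₀.eq_pow_of_pow_eq_one h1
    exact ⟨i, hi⟩
  choose d hd using hex
  have hord : orderOf ζ₀ = p ^ m := hζ₀.eq_orderOf.symm
  have hcong : ∀ a b : ℕ, ζ₀ ^ a = ζ₀ ^ b → a ≡ b [MOD p ^ m] := by
    intro a b hab
    have hfin : IsOfFinOrder ζ₀ := isOfFinOrder_iff_pow_eq_one.mpr ⟨p ^ m, hpos, hζ₀.pow_eq_one⟩
    rw [← hord]
    exact hfin.pow_eq_pow_iff_modEq.mp hab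
  have hmul : ∀ g h, d (g * h) ≡ d g * d h [MOD p ^ m] := by
    intro g h
    apply hcong
    rw [hd (g * h)]
    show g (h ζ₀) = _
    rw [← hd h, map_pow, ← hd g, ← pow_mul]
  have hone : d 1 ≡ 1 [MOD p ^ m] := by
    apply hcong
    rw [hd 1, pow_one]
    rfl
  refine ⟨d, fun g ζ hζ => ?_, fun g => ?_, hmul⟩
  · obtain ⟨j, -, rfl⟩ := hζ₀.eq_pow_of_pow_eq_one hζ
    rw [map_pow, ← hd g, ← pow_mul, ← pow_mul, mul_comm]
  · have h1 := hmul g g⁻¹
    rw [mul_inv_cancel] at h1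
    exact h1.symm.trans hone

/-- A5 -/
theorem exists_pow_le_of_finite_quotient {T : Type*} [CommRing T] [IsLocalRing T]
    [IsNoetherianRing T] (I : Ideal T) [Finite (T ⧸ I)] : ∃ n : ℕ, maximalIdeal T ^ n ≤ I := by
  by_cases hI : I = ⊤
  · exact ⟨0, by rw [hI]; exact le_top⟩
  · obtain ⟨n, hn⟩ := IsArtinianRing.isNilpotent_jacobson_bot (R := T ⧸ I)
    refine ⟨n, ?_⟩
    have h1 : Ideal.comap (Ideal.Quotient.mk I) (Ideal.jacobson (⊥ : Ideal (T ⧸ I)))
        = maximalIdeal T := by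
      rw [Ideal.comap_jacobson_of_surjective Ideal.Quotient.mk_surjective, ← RingHom.ker_eq_comap_bot,
        Ideal.mk_ker, IsLocalRing.jacobson_eq_maximalIdeal I hI]
    rw [← h1]
    refine (Ideal.le_comap_pow _ n).trans ?_
    rw [hn, Ideal.zero_eq_bot, ← RingHom.ker_eq_comap_bot, Ideal.mk_ker]

end A

end Fermat.Agent.S32
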