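import Mathlib

/-!
# S32-B2 : from the transfer property to "`V'` is a quotient of a `G`-stable subgroup of `W^ι`"
-/

set_option autoImplicit false

namespace Fermat.Agent.S32

namespace SubQuot

theorem kill_closure {W : Type*} [AddCommGroup W] {n : ℕ} (x : Fin n → W) (P : ℕ)
    (hP : ∀ i, P • x i = 0) : ∀ t ∈ AddSubgroup.closure (Set.range x), P • t = 0 := by
  intro t ht
  induction ht using AddSubgroup.closure_induction with
  | mem y hy =>
    obtain ⟨i, rfl⟩ := hy
    exact hP i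
  | zero => exact smul_zero _
  | add a b _ _ ha hb => rw [smul_add, ha, hb, add_zero]
  | neg a _ ha => rw [smul_neg, ha, neg_zero]

theorem finite_closure {W : Type*} [AddCommGroup W] {n : ℕ} (x : Fin n → W) (P : ℕ) (hP0 : P ≠ 0)
    (hP : ∀ i, P • x i = 0) : Finite (AddSubgroup.closure (Set.range x)) := by
  classical
  have hfg : AddGroup.FG (AddSubgroup.closure (Set.range x)) := by
    rw [AddGroup.fg_iff_addSubgroup_fg]
    exact ⟨Finset.univ.image x, by simp⟩
  have htors : IsAddTorsion (AddSubgroup.closure (Set.range x)) := by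
    rintro ⟨t, ht⟩
    rw [isOfFinAddOrder_iff_nsmul_eq_zero]
    exact ⟨P, Nat.pos_of_ne_zero hP0, Subtype.ext (kill_closure x P hP t ht)⟩
  exact AddCommGroup.finite_of_fg_isAddTorsion _ htors

/-- evaluation of an element of the group ring on a vector. -/
noncomputable def ev {G : Type*} {U : Type*} [AddCommGroup U] (a : G → U) : (G →₀ ℤ) →+ U :=
  Finsupp.liftAddHom (fun g => (smulAddHom ℤ U).flip (a g))

theorem ev_apply {G : Type*} {U : Type*} [AddCommGroup U] (a : G → U) (y : G →₀ ℤ) :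
    ev a y = y.sum (fun g k => k • a g) := rfl

theorem ev_single {G : Type*} {U : Type*} [AddCommGroup U] (a : G → U) (g : G) (k : ℤ) :
    ev a (Finsupp.single g k) = k • a g := by
  rw [ev_apply, Finsupp.sum_single_index (h := fun g k => k • a g) (zero_smul _ _)]

/-- left translation. -/
noncomputable def tr {G : Type*} [Group G] (g : G) : (G →₀ ℤ) →+ (G →₀ ℤ) :=
  Finsupp.mapDomain.addMonoidHom (fun h => g * h)

theorem ev_tr {G : Type*} [Group G] {U : Type*} [AddCommGroup U] (a : G → U) (f : U →+ U) (g : G)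
    (h : ∀ h, a (g * h) = f (a h)) (y : G →₀ ℤ) : ev a (tr g y) = f (ev a y) := by
  have : (ev a).comp (tr g) = f.comp (ev a) := by
    refine Finsupp.addHom_ext fun h' k => ?_
    simp only [AddMonoidHom.comp_apply, tr, Finsupp.mapDomain.addMonoidHom_apply,
      Finsupp.mapDomain_single, ev_single, h, map_zsmul]
  exact DFunLike.congr_fun this y

end SubQuot

open SubQuot in
theorem exists_subquotient {G : Type*} [Group G] {W : Type} [AddCommGroup W]
    (act : G →* Module.End ℤ W) {n : ℕ} (x : Fin n → W) (P : ℕ) (hP0 : P ≠ 0)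
    (hP : ∀ i, P • x i = 0) (hx : ∀ g i, ∃ j, act g (x i) = x j)
    {V' : Type} [AddCommGroup V'] [Finite V'] (ρ' : G →* AddMonoid.End V')
    (htransfer : ∀ y : G →₀ ℤ, (∀ i, y.sum (fun g k => k • act g (x i)) = 0) →
      ∀ v, y.sum (fun g k => k • ρ' g v) = 0) :
    ∃ (ι : Type) (_ : Finite ι) (E : AddSubgroup (ι → W)), Finite E ∧
      (∀ e ∈ E, ∀ i, P • e i = 0) ∧
      ∃ hE : ∀ g, ∀ e ∈ E, (fun i => act g (e i)) ∈ E,
      ∃ Ψ : E →+ V', Function.Surjective Ψ ∧
        ∀ g (e : E), Ψ ⟨fun i => act g (e.1 i), hE g e.1 e.2⟩ = ρ' g (Ψ e) := by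
  classical
  let _ : Fintype V' := Fintype.ofFinite V'
  set T := AddSubgroup.closure (Set.range x) with hT
  have hTfin : Finite T := finite_closure x P hP0 hP
  let Φ : (V' → (G →₀ ℤ)) →+ (V' × Fin n → W) :=
    { toFun := fun Y j => ev (fun g => act g (x j.2)) (Y j.1)
      map_zero' := by funext j; simp
      map_add' := by intro Y Y'; funext j; simp }
  let Θ : (V' → (G →₀ ℤ)) →+ V' :=
    { toFun := fun Y => ∑ v, ev (fun g => ρ' g v) (Y v)
      map_zero' := by simp
      map_add' := by intro Y Y'; simp [Finset.sum_add_distrib] }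
  have hΦ : ∀ Y j, Φ Y j = ev (fun g => act g (x j.2)) (Y j.1) := fun _ _ => rfl
  have hΘ : ∀ Y, Θ Y = ∑ v, ev (fun g => ρ' g v) (Y v) := fun _ => rfl
  have hker : Φ.rangeRestrict.ker ≤ Θ.ker := by
    intro Y hY
    rw [AddMonoidHom.mem_ker] at hY ⊢
    have hY' : Φ Y = 0 := congrArg Subtype.val hY
    rw [hΘ]
    refine Finset.sum_eq_zero fun v _ => ?_
    exact htransfer (Y v) (fun i => by
      have := congrFun hY' (v, i)
      exact this) v
  let Ψ : Φ.range →+ V' := Φ.rangeRestrict.liftOfSurjective Φ.rangeRestrict_surjective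
    (⟨Θ, hker⟩ : {g : (V' → (G →₀ ℤ)) →+ V' // Φ.rangeRestrict.ker ≤ g.ker})
  have hΨ : ∀ Y, Ψ (Φ.rangeRestrict Y) = Θ Y := fun Y =>
    AddMonoidHom.liftOfRightInverse_comp_apply Φ.rangeRestrict _ _
      (⟨Θ, hker⟩ : {g : (V' → (G →₀ ℤ)) →+ V' // Φ.rangeRestrict.ker ≤ g.ker}) Y
  have hmemT : ∀ e ∈ Φ.range, ∀ j, e j ∈ T := by
    rintro _ ⟨Y, rfl⟩ j
    rw [hΦ, ev_apply]
    refine AddSubgroup.sum_mem _ fun g _ => ?_
    obtain ⟨i, hi⟩ := hx g j.2
    simp only [hi]
    exact AddSubgroup.zsmul_mem _ (AddSubgroup.subset_closure (Set.mem_range_self i)) _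
  have htrΦ : ∀ g Y, (fun j => act g (Φ Y j)) = Φ (fun v => tr g (Y v)) := by
    intro g Y
    funext j
    rw [hΦ, hΦ]
    exact (ev_tr _ (act g).toAddMonoidHom g (fun h => by rw [map_mul]; rfl) _).symm
  have hE : ∀ g, ∀ e ∈ Φ.range, (fun i => act g (e i)) ∈ Φ.range := by
    rintro g _ ⟨Y, rfl⟩
    exact ⟨_, (htrΦ g Y).symm⟩
  refine ⟨V' × Fin n, inferInstance, Φ.range, ?_, ?_, hE, Ψ, ?_, ?_⟩
  · exact Finite.of_injective (fun e : Φ.range => fun j => (⟨e.1 j, hmemT e.1 e.2 j⟩ : T))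
      (fun e e' h => Subtype.ext (funext fun j => congrArg Subtype.val (congrFun h j)))
  · intro e he j
    exact kill_closure x P hP _ (hmemT e he j)
  · intro v
    refine ⟨Φ.rangeRestrict (Pi.single v (Finsupp.single 1 1)), ?_⟩
    rw [hΨ, hΘ, Finset.sum_eq_single v]
    · rw [Pi.single_eq_same, ev_single, map_one, one_smul]
      rfl
    · intro v' _ hv'
      rw [Pi.single_eq_of_ne hv', map_zero]
    · intro h
      exact absurd (Finset.mem_univ v) h
  · rintro g ⟨_, Y, rfl⟩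
    have h1 : (⟨fun i => act g (Φ Y i), hE g _ ⟨Y, rfl⟩⟩ : Φ.range)
        = Φ.rangeRestrict (fun v => tr g (Y v)) := Subtype.ext (htrΦ g Y)
    have h2 : (⟨Φ Y, ⟨Y, rfl⟩⟩ : Φ.range) = Φ.rangeRestrict Y := rfl
    rw [h1, h2, hΨ, hΨ, hΘ, hΘ, map_sum]
    refine Finset.sum_congr rfl fun v _ => ?_
    exact ev_tr _ (ρ' g) g (fun h => by rw [map_mul]; rfl) _

end Fermat.Agent.S32
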