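/-
S32 / B1 : abstract transfer principle: `y ∈ ℤ[G]` kills `X` ⇒ `ρ(y) = 0` mod `I`.
-/
import Mathlib

set_option autoImplicit false

namespace Fermat.Agent.S32

/-- the element `(g h - h g) * y' * k` of `ℤ[G]`, where `y' = ∑ n_u d(u) u⁻¹`. -/
noncomputable def transferY1 {G : Type*} [Group G] (d : G → ℕ) (y : G →₀ ℤ) (g h k : G) : G →₀ ℤ :=
  y.sum (fun u n => Finsupp.single (g * h * u⁻¹ * k) (n * (d u : ℤ)) -
    Finsupp.single (h * g * u⁻¹ * k) (n * (d u : ℤ)))

theorem transferY1_sum {G : Type*} [Group G] (d : G → ℕ) (y : G →₀ ℤ) (g h k : G)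
    {M : Type*} [AddCommGroup M] (f : G → M) :
    (transferY1 d y g h k).sum (fun w n => n • f w) =
      y.sum (fun u n => (n * (d u : ℤ)) • (f (g * h * u⁻¹ * k) - f (h * g * u⁻¹ * k))) := by
  rw [← Finsupp.linearCombination_apply ℤ, transferY1, map_finsuppSum]
  simp only [map_sub, Finsupp.linearCombination_single, smul_sub]

/-- the ring side of the argument. -/
theorem transfer_ringSide {G E : Type*} [Group G] [Ring E] (α : G →* E) (d : G → ℕ)
    (hd1 : ∀ g, (d g : E) * (d g⁻¹ : E) = 1) (hdm : ∀ g h, (d (g * h) : E) = d g * d h)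
    (hcent : ∀ g h, Commute (α g + (d g : E) * α g⁻¹) (α h))
    (y : G →₀ ℤ) (hy : y.sum (fun g n => n • α g) = 0) (g h k : G) :
    (transferY1 d y g h k).sum (fun w n => n • (α w + (d w : E) * α w⁻¹)) = 0 := by
  rw [transferY1_sum]
  simp only [Finsupp.sum] at hy ⊢
  set T := y.support
  set s : E := ∑ u ∈ T, y u • ((d u : E) * α u⁻¹) with hs
  -- `δ h * α h⁻¹ * s` commutes with `G`
  have h1 : ∀ a b : G, Commute ((d a : E) * α a⁻¹ * s) (α b) := by
    intro a b
    have e1 : ∑ u ∈ T, y u • (α (u * a) + (d (u * a) : E) * α (u * a)⁻¹) =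
        (d a : E) * α a⁻¹ * s := by
      have e2 : ∀ u ∈ T, y u • (α (u * a) + (d (u * a) : E) * α (u * a)⁻¹) =
          (y u • α u) * α a + (d a : E) * α a⁻¹ * (y u • ((d u : E) * α u⁻¹)) := by
        intro u _
        rw [hdm, mul_inv_rev, map_mul, map_mul, smul_add, smul_mul_assoc, mul_smul_comm]
        congr 2
        have c1 : Commute (d u : E) ((d a : E) * α a⁻¹) := Nat.cast_commute _ _
        calc (d u : E) * (d a : E) * (α a⁻¹ * α u⁻¹) = ((d u : E) * ((d a : E) * α a⁻¹)) * α u⁻¹ := by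
              noncomm_ring
          _ = (((d a : E) * α a⁻¹) * (d u : E)) * α u⁻¹ := by rw [c1.eq]
          _ = (d a : E) * α a⁻¹ * ((d u : E) * α u⁻¹) := by noncomm_ring
      rw [Finset.sum_congr rfl e2, Finset.sum_add_distrib, ← Finset.sum_mul, hy, zero_mul, zero_add,
        ← Finset.mul_sum]
    rw [← e1]
    exact Commute.sum_left _ _ _ fun u _ => Commute.smul_left (hcent (u * a) b) (y u)
  -- `α a * s` commutes with `G`
  have h2 : ∀ a b : G, Commute (α a * s) (α b) := by
    intro a b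
    have e1 : α a * s = (d a : E) * ((d a⁻¹ : E) * α (a⁻¹)⁻¹ * s) := by
      rw [inv_inv, ← mul_assoc, ← mul_assoc, hd1, one_mul]
    rw [e1]
    exact (Nat.cast_commute _ _).mul_left (h1 a⁻¹ b)
  have h3 : ∀ b : G, Commute s (α b) := by
    intro b
    have := h2 1 b
    rwa [map_one, one_mul] at this
  have h4 : (α (g * h) - α (h * g)) * s = 0 := by
    rw [sub_mul, map_mul, map_mul, sub_eq_zero, mul_assoc, ((h2 h g).eq).symm, mul_assoc,
      (h3 g).eq, mul_assoc]
  -- the two halves
  have e3 : ∀ u ∈ T, (y u * (d u : ℤ)) • ((α (g * h * u⁻¹ * k) + (d (g * h * u⁻¹ * k) : E) *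
      α (g * h * u⁻¹ * k)⁻¹) - (α (h * g * u⁻¹ * k) + (d (h * g * u⁻¹ * k) : E) *
      α (h * g * u⁻¹ * k)⁻¹)) =
      (α (g * h) - α (h * g)) * (y u • ((d u : E) * α u⁻¹)) * α k +
      ((d g : E) * (d h : E) * (d k : E)) * α k⁻¹ * (y u • α u) * (α (g * h)⁻¹ - α (h * g)⁻¹) := by
    intro u _
    have c0 : ∀ (n : ℕ) (e : E), (n : E) * e = e * (n : E) := fun n e => (Nat.cast_commute n e).eq
    have k1 : (d u : E) * (d (g * h * u⁻¹ * k) : E) = (d g : E) * (d h : E) * (d k : E) := by
      rw [hdm, hdm, hdm, c0 (d u), mul_assoc, mul_assoc, mul_assoc, c0 (d k) (d u : E),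
        ← mul_assoc (d u⁻¹ : E), c0 (d u⁻¹) (d u : E), hd1, one_mul, ← mul_assoc]
    have k2 : (d u : E) * (d (h * g * u⁻¹ * k) : E) = (d g : E) * (d h : E) * (d k : E) := by
      rw [hdm, hdm, hdm, c0 (d u), mul_assoc, mul_assoc, mul_assoc, c0 (d k) (d u : E),
        ← mul_assoc (d u⁻¹ : E), c0 (d u⁻¹) (d u : E), hd1, one_mul, ← mul_assoc,
        c0 (d h) (d g : E)]
    rw [mul_smul, mul_smul_comm, smul_mul_assoc, mul_smul_comm, smul_mul_assoc, ← smul_add]
    congr 1
    rw [natCast_zsmul, nsmul_eq_mul, mul_sub, mul_add, mul_add, ← mul_assoc (d u : E),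
      ← mul_assoc (d u : E), k1, k2]
    simp only [mul_inv_rev, inv_inv, map_mul]
    have c1 : ∀ e : E, (d u : E) * e = e * (d u : E) := c0 (d u)
    have c2 : (d u : E) * (α g * α h * α u⁻¹ * α k) = α g * α h * ((d u : E) * α u⁻¹) * α k := by
      rw [← mul_assoc (α g * α h), ← c1 (α g * α h)]
      noncomm_ring
    have c3 : (d u : E) * (α h * α g * α u⁻¹ * α k) = α h * α g * ((d u : E) * α u⁻¹) * α k := by
      rw [← mul_assoc (α h * α g), ← c1 (α h * α g)]
      noncomm_ring
    rw [c2, c3]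
    noncomm_ring
  rw [Finset.sum_congr rfl e3, Finset.sum_add_distrib, ← Finset.sum_mul, ← Finset.mul_sum, h4,
    zero_mul, zero_add, ← Finset.sum_mul, ← Finset.mul_sum, hy, mul_zero, zero_mul]

/-- in rank two the adjugate is `tr - id`. -/
theorem transfer_adjugate {S : Type*} [CommRing S] (M : Matrix (Fin 2) (Fin 2) S) :
    M.adjugate = M.trace • (1 : Matrix (Fin 2) (Fin 2) S) - M := by
  rw [Matrix.adjugate_fin_two, Matrix.trace_fin_two]
  ext i j
  fin_cases i <;> fin_cases j <;> simp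

/-- the matrix side of the argument. -/
theorem transfer_matrixSide {G S : Type*} [Group G] [CommRing S]
    (μ : G →* Matrix (Fin 2) (Fin 2) S) (d : G → ℕ) (hdet : ∀ g, (μ g).det = (d g : S))
    (hspan : Submodule.span S (Set.range μ) = ⊤) (y : G →₀ ℤ)
    (htr : ∀ g h k, (transferY1 d y g h k).sum (fun w n => n • (μ w).trace) = 0) :
    y.sum (fun u n => n • μ u) = 0 := by
  set Y : Matrix (Fin 2) (Fin 2) S := y.sum (fun u n => n • μ u) with hY
  set Y' : Matrix (Fin 2) (Fin 2) S := Y.trace • (1 : Matrix (Fin 2) (Fin 2) S) - Y with hY'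
  -- `d u • μ u⁻¹ = tr (μ u) - μ u`
  have h1 : ∀ u, (d u : ℤ) • μ u⁻¹ = (μ u).trace • (1 : Matrix (Fin 2) (Fin 2) S) - μ u := by
    intro u
    rw [← transfer_adjugate]
    have e1 : μ u * μ u⁻¹ = 1 := by rw [← map_mul, mul_inv_cancel, map_one]
    calc (d u : ℤ) • μ u⁻¹ = (μ u).det • μ u⁻¹ := by
          rw [hdet, natCast_zsmul, Nat.cast_smul_eq_nsmul]
      _ = ((μ u).det • (1 : Matrix (Fin 2) (Fin 2) S)) * μ u⁻¹ := by rw [smul_mul_assoc, one_mul]
      _ = (μ u).adjugate * μ u * μ u⁻¹ := by rw [Matrix.adjugate_mul]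
      _ = (μ u).adjugate := by rw [mul_assoc, e1, mul_one]
  have h2 : y.sum (fun u n => (n * (d u : ℤ)) • μ u⁻¹) = Y' := by
    have e1 : Y.trace = y.sum (fun u n => n • (μ u).trace) := by
      rw [hY]
      simp only [Finsupp.sum, Matrix.trace_sum, Matrix.trace_smul]
    rw [hY', e1, hY]
    simp only [Finsupp.sum, mul_smul, h1, smul_sub, Finset.sum_sub_distrib, Finset.sum_smul,
      smul_assoc]
  -- the trace identity on the group
  have H0 : ∀ g h k, ((μ g * μ h - μ h * μ g) * Y' * μ k).trace = 0 := by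
    intro g h k
    have e1 := htr g h k
    rw [transferY1_sum] at e1
    rw [← e1, ← h2]
    simp only [Finsupp.sum, Finset.mul_sum, Finset.sum_mul, Matrix.trace_sum]
    refine Finset.sum_congr rfl fun u _ => ?_
    rw [mul_smul_comm, smul_mul_assoc, Matrix.trace_smul, ← Matrix.trace_sub]
    congr 2
    simp only [map_mul]
    noncomm_ring
  have H1 : ∀ B1 : Matrix (Fin 2) (Fin 2) S, ∀ h k,
      ((B1 * μ h - μ h * B1) * Y' * μ k).trace = 0 := by
    intro B1
    have hB : B1 ∈ Submodule.span S (Set.range μ) := hspan ▸ Submodule.mem_top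
    induction hB using Submodule.span_induction with
    | mem x hx => obtain ⟨g, rfl⟩ := hx; exact H0 g
    | zero => intro h k; simp
    | add a b _ _ ha hb =>
      intro h k
      have e : ((a + b) * μ h - μ h * (a + b)) * Y' * μ k =
          (a * μ h - μ h * a) * Y' * μ k + (b * μ h - μ h * b) * Y' * μ k := by noncomm_ring
      rw [e, Matrix.trace_add, ha, hb, add_zero]
    | smul c a _ ha =>
      intro h k
      have e : ((c • a) * μ h - μ h * (c • a)) * Y' * μ k = c • ((a * μ h - μ h * a) * Y' * μ k) := by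
        rw [smul_mul_assoc, mul_smul_comm, ← smul_sub, smul_mul_assoc, smul_mul_assoc]
      rw [e, Matrix.trace_smul, ha, smul_zero]
  have H2 : ∀ B1 B2 : Matrix (Fin 2) (Fin 2) S, ∀ k,
      ((B1 * B2 - B2 * B1) * Y' * μ k).trace = 0 := by
    intro B1 B2
    have hB : B2 ∈ Submodule.span S (Set.range μ) := hspan ▸ Submodule.mem_top
    induction hB using Submodule.span_induction with
    | mem x hx => obtain ⟨g, rfl⟩ := hx; exact H1 B1 g
    | zero => intro k; simp
    | add a b _ _ ha hb =>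
      intro k
      have e : (B1 * (a + b) - (a + b) * B1) * Y' * μ k =
          (B1 * a - a * B1) * Y' * μ k + (B1 * b - b * B1) * Y' * μ k := by noncomm_ring
      rw [e, Matrix.trace_add, ha, hb, add_zero]
    | smul c a _ ha =>
      intro k
      have e : (B1 * (c • a) - (c • a) * B1) * Y' * μ k = c • ((B1 * a - a * B1) * Y' * μ k) := by
        rw [smul_mul_assoc, mul_smul_comm, ← smul_sub, smul_mul_assoc, smul_mul_assoc]
      rw [e, Matrix.trace_smul, ha, smul_zero]
  have H3 : ∀ B1 B2 B3 : Matrix (Fin 2) (Fin 2) S, ((B1 * B2 - B2 * B1) * Y' * B3).trace = 0 := by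
    intro B1 B2 B3
    have hB : B3 ∈ Submodule.span S (Set.range μ) := hspan ▸ Submodule.mem_top
    induction hB using Submodule.span_induction with
    | mem x hx => obtain ⟨g, rfl⟩ := hx; exact H2 B1 B2 g
    | zero => simp
    | add a b _ _ ha hb => rw [mul_add, Matrix.trace_add, ha, hb, add_zero]
    | smul c a _ ha => rw [mul_smul_comm, Matrix.trace_smul, ha, smul_zero]
  -- all entries of `Y'` vanish
  have H4 : ∀ B3 : Matrix (Fin 2) (Fin 2) S, (!![(1 : S), 0; 0, -1] * Y' * B3).trace = 0 := by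
    intro B3
    have e : !![(1 : S), 0; 0, -1] = !![(0 : S), 1; 0, 0] * !![(0 : S), 0; 1, 0] -
        !![(0 : S), 0; 1, 0] * !![(0 : S), 1; 0, 0] := by
      ext i j
      fin_cases i <;> fin_cases j <;> simp
    rw [e]
    exact H3 _ _ B3
  have hY'0 : Y' = 0 := by
    have a00 := H4 !![(1 : S), 0; 0, 0]
    have a01 := H4 !![(0 : S), 0; 1, 0]
    have a10 := H4 !![(0 : S), 1; 0, 0]
    have a11 := H4 !![(0 : S), 0; 0, 1]
    simp only [Matrix.trace_fin_two, Matrix.mul_apply, Fin.sum_univ_two] at a00 a01 a10 a11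
    simp at a00 a01 a10 a11
    ext i j
    fin_cases i <;> fin_cases j <;> simp [a00, a01, a10, a11]
  have ht : Y.trace = 0 := by
    have e : Y'.trace = Y.trace := by
      rw [hY', Matrix.trace_sub, Matrix.trace_smul, Matrix.trace_one]
      simp
      ring
    rw [← e, hY'0, Matrix.trace_zero]
  have : Y = Y.trace • (1 : Matrix (Fin 2) (Fin 2) S) - Y' := by rw [hY']; abel
  rw [this, ht, hY'0]
  simp

theorem transfer {G : Type*} [Group G] {W : Type*} [AddCommGroup W] (act : G →* Module.End ℤ W)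
    (X : Submodule ℤ W) (hX : ∀ g, ∀ x ∈ X, act g x ∈ X)
    (P : ℕ) (hP : ∀ x ∈ X, P • x = 0)
    (d : G → ℕ) (hd1 : ∀ g, d g * d g⁻¹ ≡ 1 [MOD P]) (hdm : ∀ g h, d (g * h) ≡ d g * d h [MOD P])
    (hcent : ∀ g h, ∀ x ∈ X, act g (act h x) + d g • act g⁻¹ (act h x)
      = act h (act g x + d g • act g⁻¹ x))
    {R V : Type*} [CommRing R] [AddCommGroup V] [Module R V] [Module.Free R V] [Module.Finite R V]
    (hV : Module.finrank R V = 2) (ρ : G →* Module.End R V) (I : Ideal R)
    (hdet : ∀ g, LinearMap.det (ρ g) - (d g : R) ∈ I)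
    (hspan : Submodule.span R (Set.range ρ) = ⊤)
    (htr : ∀ c : G →₀ ℤ, (∀ x ∈ X, c.sum (fun g k => k • (act g x + d g • act g⁻¹ x)) = 0) →
      c.sum (fun g k => (k : R) * LinearMap.trace R V (ρ g)) ∈ I)
    (y : G →₀ ℤ) (hy : ∀ x ∈ X, y.sum (fun g k => k • act g x) = 0) (v : V) :
    y.sum (fun g k => k • ρ g v) ∈ I • (⊤ : Submodule R V) := by
  classical
  -- the ring `End X`
  let α : G →* Module.End ℤ X :=
    { toFun := fun g => (act g).restrict (hX g)
      map_one' := by ext x; simp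
      map_mul' := fun a b => by ext x; simp }
  have hα : ∀ g (x : X), ((α g x : X) : W) = act g x := fun g x => rfl
  have hnat : ∀ (n : ℕ) (x : X), (n : Module.End ℤ X) x = n • x := fun n x => by
    rw [Module.End.natCast_apply]
  have hPE : (P : Module.End ℤ X) = 0 := by
    ext x
    rw [hnat]
    simpa using hP x x.2
  have hcast : ∀ a b : ℕ, a ≡ b [MOD P] → (a : Module.End ℤ X) = b := by
    intro a b hab
    obtain ⟨c, hc⟩ := Nat.modEq_iff_dvd.mp hab
    have h0 : ((b : ℤ) : Module.End ℤ X) - ((a : ℤ) : Module.End ℤ X) = 0 := by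
      rw [← Int.cast_sub, hc, Int.cast_mul, Int.cast_natCast, hPE, zero_mul]
    rw [Int.cast_natCast, Int.cast_natCast, sub_eq_zero] at h0
    exact h0.symm
  have hy' : y.sum (fun g n => n • α g) = 0 := by
    ext x
    have := hy x x.2
    simp only [Finsupp.sum] at this ⊢
    simpa [LinearMap.sum_apply, hα] using this
  have hcent' : ∀ g h, Commute (α g + (d g : Module.End ℤ X) * α g⁻¹) (α h) := by
    intro g h
    ext x
    have := hcent g h x x.2
    simp only [Module.End.mul_apply, LinearMap.add_apply, hnat, Submodule.coe_add,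
      Submodule.coe_smul_of_tower, hα, map_add]
    rw [this, map_add]
  have key : ∀ g h k, ∀ x ∈ X,
      (transferY1 d y g h k).sum (fun g k => k • (act g x + d g • act g⁻¹ x)) = 0 := by
    intro g h k x hx
    have h0 := transfer_ringSide α d
      (fun g => by rw [← Nat.cast_mul, hcast _ _ (hd1 g), Nat.cast_one])
      (fun g h => by rw [hcast _ _ (hdm g h), Nat.cast_mul]) hcent' y hy' g h k
    have h1 := congrArg (fun e : Module.End ℤ X => ((e ⟨x, hx⟩ : X) : W)) h0
    simp only [Finsupp.sum, LinearMap.sum_apply, LinearMap.smul_apply, LinearMap.add_apply,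
      Module.End.mul_apply, hnat, AddSubmonoidClass.coe_finsetSum, Submodule.coe_smul_of_tower,
      Submodule.coe_add, hα, LinearMap.zero_apply, ZeroMemClass.coe_zero] at h1 ⊢
    exact h1
  -- matrices over `R ⧸ I`
  have hnt : Nontrivial R := by
    by_contra h
    rw [not_nontrivial_iff_subsingleton] at h
    rw [Module.finrank_subsingleton] at hV
    exact absurd hV (by norm_num)
  let b := Module.finBasisOfFinrankEq R V hV
  let φ : Module.End R V →+* Matrix (Fin 2) (Fin 2) (R ⧸ I) :=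
    (Ideal.Quotient.mk I).mapMatrix.comp ((LinearMap.toMatrixAlgEquiv b : _ ≃ₐ[R] _) : _ →+* _)
  have hφ : ∀ f i j, φ f i j = Ideal.Quotient.mk I (LinearMap.toMatrix b b f i j) :=
    fun f i j => rfl
  have hφtr : ∀ f, (φ f).trace = Ideal.Quotient.mk I (LinearMap.trace R V f) := by
    intro f
    rw [LinearMap.trace_eq_matrix_trace R b f, Matrix.trace_fin_two, Matrix.trace_fin_two, map_add,
      hφ, hφ]
  have hφdet : ∀ f, (φ f).det = Ideal.Quotient.mk I (LinearMap.det f) := by
    intro f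
    rw [← LinearMap.det_toMatrix b f, Matrix.det_fin_two, Matrix.det_fin_two, map_sub, map_mul,
      map_mul, hφ, hφ, hφ, hφ]
  have hφsmul : ∀ (c : R) f, φ (c • f) = (Ideal.Quotient.mk I c) • φ f := by
    intro c f
    ext i j
    rw [Matrix.smul_apply, hφ, hφ, map_smul, Matrix.smul_apply, smul_eq_mul, smul_eq_mul, map_mul]
  have hφsurj : Function.Surjective φ := by
    intro N
    choose N₀ hN₀ using fun i j => Ideal.Quotient.mk_surjective (N i j)
    refine ⟨Matrix.toLin b b (Matrix.of N₀), ?_⟩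
    ext i j
    rw [hφ, LinearMap.toMatrix_toLin, Matrix.of_apply, hN₀]
  let μ : G →* Matrix (Fin 2) (Fin 2) (R ⧸ I) := (φ : _ →* _).comp ρ
  have hμ : ∀ g, μ g = φ (ρ g) := fun g => rfl
  have hspan' : Submodule.span (R ⧸ I) (Set.range μ) = ⊤ := by
    rw [eq_top_iff]
    rintro N -
    obtain ⟨f, rfl⟩ := hφsurj N
    have hf : f ∈ Submodule.span R (Set.range ρ) := hspan ▸ Submodule.mem_top
    induction hf using Submodule.span_induction with
    | mem x hx => obtain ⟨g, rfl⟩ := hx; exact Submodule.subset_span ⟨g, rfl⟩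
    | zero => rw [map_zero]; exact Submodule.zero_mem _
    | add a c _ _ ha hc => rw [map_add]; exact Submodule.add_mem _ ha hc
    | smul c a _ ha => rw [hφsmul]; exact Submodule.smul_mem _ _ ha
  have hdet' : ∀ g, (μ g).det = (d g : R ⧸ I) := by
    intro g
    rw [hμ, hφdet, ← map_natCast (Ideal.Quotient.mk I), Ideal.Quotient.eq]
    exact hdet g
  have htr' : ∀ g h k, (transferY1 d y g h k).sum (fun w n => n • (μ w).trace) = 0 := by
    intro g h k
    have h0 := htr (transferY1 d y g h k) (key g h k)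
    rw [← Ideal.Quotient.eq_zero_iff_mem, map_finsuppSum] at h0
    rw [← h0]
    refine Finsupp.sum_congr fun w _ => ?_
    rw [hμ, hφtr, zsmul_eq_mul, map_mul, map_intCast]
  have main := transfer_matrixSide μ d hdet' hspan' y htr'
  set f : Module.End R V := y.sum (fun u n => n • ρ u) with hf
  have hf0 : φ f = 0 := by
    rw [hf, map_finsuppSum, ← main]
    exact Finsupp.sum_congr fun w _ => by rw [map_zsmul, hμ]
  have hent : ∀ i j, LinearMap.toMatrix b b f i j ∈ I := by
    intro i j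
    rw [← Ideal.Quotient.eq_zero_iff_mem, ← hφ, hf0]
    rfl
  have hfv : y.sum (fun g k => k • ρ g v) = f v := by
    rw [hf]
    simp only [Finsupp.sum, LinearMap.sum_apply, LinearMap.smul_apply]
  rw [hfv, ← b.sum_repr (f v)]
  refine Submodule.sum_mem _ fun i _ => Submodule.smul_mem_smul ?_ Submodule.mem_top
  rw [← LinearMap.toMatrix_mulVec_repr b b f v, Matrix.mulVec, dotProduct]
  exact Ideal.sum_mem _ fun j _ => Ideal.mul_mem_right _ _ (hent i j)

end Fermat.Agent.S32
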