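/-
S32 / Formal : (SQ)  `V / I V` is a quotient of a Galois stable subgroup of a finite power of the
`p ^ k`-torsion of the Kummer classes.
-/
import Mathlib
import Fermat.Prelude.Def_GaloisRep_Flat
import Fermat.Agent.TOR.AdicMaster
import Fermat.Agent.GR.Adic.TraceRigid
import Fermat.Agent.S32.Transfer
import Fermat.Agent.S32.SubQuot
import Fermat.Agent.S32.ChebSmall
import Fermat.Agent.S32.ChebCentral
import Fermat.Agent.S32.ChebTrace

set_option autoImplicit false

namespace Fermat.Agent.S32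

open Fermat.Agent.GR.Adic Fermat.Agent.TOR IsLocalRing Polynomial
open Fermat.Agent.GR.Asm (WeakChebotarev)

local notation "Qbar'" => AlgebraicClosure ℚ

section level

variable {R : Type} [CommRing R] [IsLocalRing R]

theorem levelAction_mk (ρ : GaloisRepAdic R) (I : Ideal R) (σ : GQ) (v : ρ.V) :
    ρ.levelAction I σ (Submodule.Quotient.mk v) = Submodule.Quotient.mk (ρ.ρ σ v) := rfl

/-- the action on `V / I V` as a monoid hom into additive endomorphisms. -/
noncomputable def levelHom (ρ : GaloisRepAdic R) (I : Ideal R) :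
    GQ →* AddMonoid.End (ρ.V ⧸ (I • (⊤ : Submodule R ρ.V))) where
  toFun σ := (ρ.levelAction I σ).toAddMonoidHom
  map_one' := by
    ext x
    induction x using Submodule.Quotient.induction_on with
    | _ v =>
      show ρ.levelAction I 1 (Submodule.Quotient.mk v) = Submodule.Quotient.mk v
      rw [levelAction_mk, map_one, Module.End.one_apply]
  map_mul' σ τ := by
    ext x
    induction x using Submodule.Quotient.induction_on with
    | _ v =>
      show ρ.levelAction I (σ * τ) (Submodule.Quotient.mk v)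
        = ρ.levelAction I σ (ρ.levelAction I τ (Submodule.Quotient.mk v))
      rw [levelAction_mk, levelAction_mk, levelAction_mk, map_mul, Module.End.mul_apply]

theorem levelHom_apply (ρ : GaloisRepAdic R) (I : Ideal R) (σ : GQ)
    (x : ρ.V ⧸ (I • (⊤ : Submodule R ρ.V))) : levelHom ρ I σ x = ρ.levelAction I σ x := rfl

theorem finite_level (ρ : GaloisRepAdic R) (I : Ideal R) [Finite (R ⧸ I)] :
    Finite (ρ.V ⧸ (I • (⊤ : Submodule R ρ.V))) := by
  have : Module.Finite (R ⧸ I) (ρ.V ⧸ (I • (⊤ : Submodule R ρ.V))) := inferInstance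
  exact Module.finite_of_finite (R ⧸ I)

end level

/-- **(SQ)** -/
theorem subquotient_of_kSys (hcheb : WeakChebotarev) {p : ℕ} (hp : p.Prime) {bad : Finset ℕ}
    (hpbad : p ∈ bad) (K : KSys p (↑bad : Set ℕ))
    (hTact : ∀ ℓ : ℕ, ℓ.Prime → ℓ ∉ bad → ∀ σ : GQ, Commute (K.T ℓ) (K.act σ))
    {𝕋 : Type*} [CommRing 𝕋] (ι : 𝕋 →+* Module.End ℤ K.L0) (τ : ℕ → 𝕋)
    (hτ : ∀ ℓ : ℕ, ℓ.Prime → ℓ ∉ bad → ι (τ ℓ) = K.T0 ℓ)
    {R : Type} [CommRing R] [IsLocalRing R] [IsNoetherianRing R]
    (hpR : (p : R) ∈ maximalIdeal R)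
    (ψ : 𝕋 →+* R) (hker : ∀ t : 𝕋, ι t = 0 → ψ t = 0)
    (ρ : GaloisRepAdic R)
    (hρ : ∀ ℓ : ℕ, ℓ.Prime → ℓ ∉ bad → ∀ A : ValuationSubring Qbar', A.LiesOverPrime ℓ →
      ∀ σ : GQ, A.IsFrobeniusAt σ ℓ →
        LinearMap.charpoly (ρ.ρ σ) = X ^ 2 - C (ψ (τ ℓ)) * X + C (ℓ : R))
    (habs : ρ.residual.IsAbsolutelyIrreducible) (I : Ideal R) [Finite (R ⧸ I)] :
    ∃ (k : ℕ) (ι' : Type) (_ : Finite ι') (E : AddSubgroup (ι' → K.W)), Finite E ∧
      (∀ e ∈ E, ∀ i, (p ^ k) • e i = 0) ∧
      ∃ hE : ∀ g, ∀ e ∈ E, (fun i => K.act g (e i)) ∈ E,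
      ∃ Ψ : E →+ (ρ.V ⧸ (I • (⊤ : Submodule R ρ.V))), Function.Surjective Ψ ∧
        ∀ g (e : E), Ψ ⟨fun i => K.act g (e.1 i), hE g e.1 e.2⟩ = ρ.levelAction I g (Ψ e) := by
  classical
  obtain ⟨n, hn⟩ := exists_pow_le_of_finite_quotient I
  obtain ⟨m₀, hm₀⟩ := trace_congr hcheb hp hpbad K ι τ hτ hpR ψ hker ρ hρ n
  set m := max m₀ n with hm
  obtain ⟨d, hd, hd1, hdm⟩ := exists_cyc hp m
  obtain ⟨N, x, hx1, hx2, hx3⟩ := exists_gens K m
  set Xs : Submodule ℤ K.W := Submodule.span ℤ (Set.range x) with hXs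
  have hXstab : ∀ g, ∀ w ∈ Xs, K.act g w ∈ Xs := by
    intro g w hw
    induction hw using Submodule.span_induction with
    | mem w hw =>
      obtain ⟨i, rfl⟩ := hw
      obtain ⟨j, hj⟩ := hx2 g i
      rw [hj]
      exact Submodule.subset_span ⟨j, rfl⟩
    | zero => rw [map_zero]; exact Submodule.zero_mem _
    | add a b _ _ ha hb => rw [map_add]; exact Submodule.add_mem _ ha hb
    | smul c a _ ha => rw [map_smul]; exact Submodule.smul_mem _ _ ha
  have hXtors : ∀ w ∈ Xs, (p ^ m) • w = 0 := by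
    intro w hw
    induction hw using Submodule.span_induction with
    | mem w hw => obtain ⟨i, rfl⟩ := hw; exact hx1 i
    | zero => exact smul_zero _
    | add a b _ _ ha hb => rw [smul_add, ha, hb, add_zero]
    | smul c a _ ha => rw [smul_comm, ha, smul_zero]
  have hdetρ : ∀ ℓ : ℕ, ℓ.Prime → ℓ ∉ bad → ∀ A : ValuationSubring Qbar', A.LiesOverPrime ℓ →
      ∀ σ : GQ, A.IsFrobeniusAt σ ℓ → LinearMap.det (ρ.ρ σ) = (ℓ : R) := by
    intro ℓ hℓ hb A hA σ hσ
    exact (tor_trace_det_of_charpoly ρ.finrank_eq _ _ _ (hρ ℓ hℓ hb A hA σ hσ)).2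
  have htrans : ∀ y : GQ →₀ ℤ, (∀ w ∈ Xs, y.sum (fun g k => k • K.act g w) = 0) → ∀ v : ρ.V,
      y.sum (fun g k => k • ρ.ρ g v) ∈ I • (⊤ : Submodule R ρ.V) := by
    intro y hy v
    refine transfer K.act Xs hXstab (p ^ m) hXtors d hd1 hdm ?_ ρ.finrank_eq ρ.ρ I ?_
      (span_range_eq_top_of_residual_absIrr ρ habs) ?_ y hy v
    · intro g h w hw
      exact central hcheb hp hpbad K hTact m w (hXtors w hw) g h (d g) (hd g)
    · intro g
      refine hn (det_congr hcheb hp hpbad hpR ρ hdetρ n g (d g) ?_)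
      intro ζ hζ
      refine hd g ζ ?_
      obtain ⟨c, hc⟩ := Nat.exists_eq_add_of_le (le_max_right m₀ n)
      rw [← hm] at hc
      rw [hc, pow_add, pow_mul, hζ, one_pow]
    · intro c hc
      exact hn (hm₀ m (le_max_left _ _) d hd c (fun z => hc _ (hx3 z)))
  have := finite_level ρ I
  obtain ⟨ι', hι', E, hEfin, hEt, hE, Ψ, hΨs, hΨe⟩ :=
    exists_subquotient K.act x (p ^ m) (pow_ne_zero _ hp.ne_zero) hx1 hx2 (levelHom ρ I) (by
      intro y hy v
      induction v using Submodule.Quotient.induction_on with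
      | _ v =>
        have h1 : ∀ w ∈ Xs, y.sum (fun g k => k • K.act g w) = 0 := by
          intro w hw
          induction hw using Submodule.span_induction with
          | mem w hw => obtain ⟨i, rfl⟩ := hw; exact hy i
          | zero => simp [Finsupp.sum]
          | add a b _ _ ha hb =>
            simp only [map_add, smul_add, Finsupp.sum_add, ha, hb, add_zero]
          | smul c a _ ha =>
            have : (y.sum fun g k => k • K.act g (c • a)) = c • y.sum fun g k => k • K.act g a := by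
              rw [Finsupp.smul_sum]
              refine Finsupp.sum_congr fun g _ => ?_
              rw [map_zsmul, smul_comm]
            rw [this, ha, smul_zero]
        have h2 := htrans y h1 v
        have h3 : (y.sum fun g k => k • levelHom ρ I g (Submodule.Quotient.mk v))
            = Submodule.Quotient.mk (y.sum fun g k => k • ρ.ρ g v) := by
          rw [Finsupp.sum, Finsupp.sum]
          have h4 : (Submodule.Quotient.mk (∑ a ∈ y.support, y a • ρ.ρ a v) :
              ρ.V ⧸ (I • (⊤ : Submodule R ρ.V)))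
              = (I • (⊤ : Submodule R ρ.V)).mkQ (∑ a ∈ y.support, y a • ρ.ρ a v) := rfl
          rw [h4, map_sum]
          refine Finset.sum_congr rfl fun g _ => ?_
          rw [map_zsmul]
          rfl
        rw [h3]
        exact (Submodule.Quotient.mk_eq_zero _).2 h2)
  exact ⟨m, ι', hι', E, hEfin, hEt, hE, Ψ, hΨs, hΨe⟩

end Fermat.Agent.S32
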