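/-
S32 / Main : S32 from the contracts (KeyLemmaStatement; (REP) for `J₀(4N)[p^k]`; (H1)).
-/
import Mathlib
import Fermat.Agent.S32.Defs
import Fermat.Agent.S32.Formal
import Fermat.Agent.S32.Closure
import Fermat.Agent.S32.Quot
import Fermat.Agent.S32.Dict
import Fermat.Agent.TOR.S34Chain
import Fermat.Agent.GAL.AN.Family
import Fermat.Agent.GAL.HK.Input
import Fermat.Agent.GAL.Cheb.Export
import Fermat.Agent.Lib.FrobeniusExists

set_option autoImplicit false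

namespace Fermat.Agent.S32

open Fermat.Agent.GR.Adic Fermat.Agent.TOR IsLocalRing Polynomial ModularCurve
open Fermat.Agent.GR.Asm (WeakChebotarev)
open Fermat.Agent.S19 (HasRep HasFFModel)

local notation "Qbar'" => AlgebraicClosure ℚ

/-- (SQ) for a geometric core at an auxiliary level. -/
theorem subquotient_of_core (hcheb : WeakChebotarev)
    {𝒪 : Type} [CommRing 𝒪] [IsDomain 𝒪] [IsDiscreteValuationRing 𝒪]
    [IsAdicComplete (maximalIdeal 𝒪) 𝒪]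
    {p : ℕ} (hp : p.Prime) (hp𝒪 : (p : 𝒪) ∈ maximalIdeal 𝒪)
    {N : ℕ} [NeZero N] {S : Finset ℕ}
    {θ : CuspForm.heckeAlgebra N 2 (↑S : Set ℕ) →+* ResidueField 𝒪}
    {T : Type} [CommRing T] [IsLocalRing T] [IsNoetherianRing T]
    [IsAdicComplete (maximalIdeal T) T] [Algebra 𝒪 T] [IsLocalHom (algebraMap 𝒪 T)]
    [Module.Finite 𝒪 T] [Module.Free 𝒪 T]
    (H : CuspForm.HeckeGaloisRepDatum N (↑S : Set ℕ) 𝒪 θ T)
    {M : ℕ} [NeZero M] (C : Core M p) (hLR : LevelRes N M) (I : Ideal T) [Finite (T ⧸ I)] :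
    ∃ (k : ℕ) (ι' : Type) (_ : Finite ι') (E : AddSubgroup (ι' → C.W)), Finite E ∧
      (∀ e ∈ E, ∀ i, (p ^ k) • e i = 0) ∧
      ∃ hE : ∀ g, ∀ e ∈ E, (fun i => C.act g (e i)) ∈ E,
      ∃ Ψ : E →+ (H.ρ.V ⧸ (I • (⊤ : Submodule T H.ρ.V))), Function.Surjective Ψ ∧
        ∀ g (e : E), Ψ ⟨fun i => C.act g (e.1 i), hE g e.1 e.2⟩ = H.ρ.levelAction I g (Ψ e) := by
  classical
  have hpT : (p : T) ∈ maximalIdeal T := by
    have h1 : (p : T) = algebraMap 𝒪 T (p : 𝒪) := (map_natCast _ _).symm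
    rw [h1]
    exact map_nonunit (algebraMap 𝒪 T) _ hp𝒪
  set S' : Set ℕ := (↑S : Set ℕ) ∪ badSet M with hS'
  obtain ⟨r, hr⟩ := hLR (↑S : Set ℕ) S' Set.subset_union_left Set.subset_union_right
  set bad : Finset ℕ := S ∪ N.primeFactors ∪ (M * p).primeFactors with hbad
  have hMp : M * p ≠ 0 := Nat.mul_ne_zero (NeZero.ne M) hp.ne_zero
  have hb : ∀ ℓ : ℕ, ℓ.Prime → ℓ ∉ bad → ¬ ℓ ∣ N ∧ ℓ ∉ (↑S : Set ℕ) ∧ ¬ ℓ ∣ M * p := by
    intro ℓ hℓ hmem
    rw [hbad, Finset.mem_union, Finset.mem_union, not_or, not_or] at hmem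
    refine ⟨fun hd => hmem.1.2 (Nat.mem_primeFactors.2 ⟨hℓ, hd, NeZero.ne N⟩), ?_,
      fun hd => hmem.2 (Nat.mem_primeFactors.2 ⟨hℓ, hd, hMp⟩)⟩
    simpa using hmem.1.1
  have hb' : ∀ ℓ : ℕ, ℓ.Prime → ℓ ∉ bad → ¬ ℓ ∣ M ∧ ℓ ∉ S' := by
    intro ℓ hℓ hmem
    obtain ⟨-, h2, h3⟩ := hb ℓ hℓ hmem
    have hM : ¬ ℓ ∣ M := fun hd => h3 (Dvd.dvd.mul_right hd p)
    exact ⟨hM, fun h => h.elim h2 (not_mem_badSet hM)⟩
  have hpbad : p ∈ bad := by
    rw [hbad]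
    exact Finset.mem_union_right _ (Nat.mem_primeFactors.2 ⟨hp, Dvd.intro_left M rfl, hMp⟩)
  let K : KSys p (↑bad : Set ℕ) := coreKSys C (↑bad : Set ℕ)
    (fun ℓ hℓ hmem => (hb ℓ hℓ (by simpa using hmem)).2.2)
  let incl : CuspForm.heckeAlgebra M 2 S' →+* CuspForm.heckeAlgebra M 2 (badSet M) :=
    (Subalgebra.inclusion (CuspForm.heckeAlgebra_mono (N := M) (k := 2)
      (Set.subset_union_right : badSet M ⊆ S'))).toRingHom
  have hincl : Function.Injective incl := Subalgebra.inclusion_injective _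
  let ι : CuspForm.heckeAlgebra M 2 S' →+* Module.End ℤ K.L0 := C.ι.comp incl
  let τ : ℕ → CuspForm.heckeAlgebra M 2 S' := fun ℓ =>
    if h : ℓ.Prime ∧ ¬ ℓ ∣ M ∧ ℓ ∉ S' then CuspForm.heckeAlgebra.T h.1 h.2.1 h.2.2 else 0
  have hτdef : ∀ (ℓ : ℕ) (hℓ : ℓ.Prime) (hℓM : ¬ ℓ ∣ M) (hℓS' : ℓ ∉ S'),
      τ ℓ = CuspForm.heckeAlgebra.T hℓ hℓM hℓS' := by
    intro ℓ hℓ hℓM hℓS'
    exact dif_pos ⟨hℓ, hℓM, hℓS'⟩
  exact subquotient_of_kSys hcheb hp hpbad K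
    (fun ℓ hℓ hmem σ => C.T_act ℓ hℓ (hb' ℓ hℓ hmem).1 σ) ι τ
    (by
      intro ℓ hℓ hmem
      obtain ⟨hM, hS⟩ := hb' ℓ hℓ hmem
      rw [hτdef ℓ hℓ hM hS]
      exact C.ι_T ℓ hℓ hM)
    hpT (H.π.comp r)
    (by
      intro t ht
      have : t = 0 := hincl (C.ι_inj (by rw [map_zero, map_zero]; exact ht))
      rw [this, map_zero])
    H.ρ
    (by
      intro ℓ hℓ hmem A hA σ hσ
      obtain ⟨hM, hS⟩ := hb' ℓ hℓ hmem
      obtain ⟨hN, hS0, -⟩ := hb ℓ hℓ hmem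
      rw [hτdef ℓ hℓ hM hS, RingHom.comp_apply, hr ℓ hℓ hM hS hN hS0]
      exact H.charpoly_frob ℓ hℓ hN hS0 A hA σ hσ)
    H.residual_absIrr I

/-- **S32 from the contracts.** -/
theorem S32_of_contracts (hK : Fermat.Agent.GAL.KeyLemmaStatement)
    {p : ℕ} {N : ℕ} [NeZero N] {S : Finset ℕ}
    (hRep : RepContract (4 * N) p) (hH1 : H1Contract p)
    {𝒪 : Type} [CommRing 𝒪] [IsDomain 𝒪] [IsDiscreteValuationRing 𝒪]
    [IsAdicComplete (IsLocalRing.maximalIdeal 𝒪) 𝒪]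
    {θ : CuspForm.heckeAlgebra N 2 (↑S : Set ℕ) →+* IsLocalRing.ResidueField 𝒪}
    {T : Type} [CommRing T] [IsLocalRing T] [IsNoetherianRing T]
    [IsAdicComplete (IsLocalRing.maximalIdeal T) T] [Algebra 𝒪 T] [IsLocalHom (algebraMap 𝒪 T)]
    [Module.Finite 𝒪 T] [Module.Free 𝒪 T]
    [Finite (IsLocalRing.ResidueField 𝒪)]
    (hp : p.Prime) (hp𝒪 : (p : 𝒪) ∈ IsLocalRing.maximalIdeal 𝒪)
    (H : CuspForm.HeckeGaloisRepDatum N (↑S : Set ℕ) 𝒪 θ T) :
    H.ρ.IsFlatAt p := by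
  classical
  have hcheb : WeakChebotarev := Fermat.Agent.GAL.Cheb.weakChebotarev_asm
  refine ⟨?_, fun I hI => ?_⟩
  · -- the residue field of `T` is finite
    have hs : Function.Surjective (IsLocalRing.ResidueField.map (algebraMap 𝒪 T)) := by
      intro y
      obtain ⟨a, ha⟩ := H.residue_surjective y
      exact ⟨IsLocalRing.residue 𝒪 a, ha⟩
    exact Finite.of_surjective _ hs
  · have h4 : NeZero (4 * N) := ⟨Nat.mul_ne_zero (by norm_num) (NeZero.ne N)⟩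
    have hM : Fermat.Agent.GAL.AdmLevel (4 * N) := Or.inl (Dvd.intro _ rfl)
    obtain ⟨A, hA⟩ := Fermat.Agent.Lib.FrobeniusExists.exists_liesOverPrime (L := Qbar') hp
    let 𝒜 := Fermat.Agent.GAL.AN.anFamily (4 * N) p hp.ne_zero hM
    let C : Core (4 * N) p := RT.coreS hp 𝒜 (RT.esElem_of_keyLemma hM 𝒜 hK)
      (RT.inElem_of_keyLemma hM 𝒜 hK) (Fermat.Agent.GAL.HK.hkInput (4 * N))
    obtain ⟨k, ι', hι', E, hEfin, hEt, hE, Ψ, hΨs, hΨe⟩ :=
      subquotient_of_core hcheb hp hp𝒪 H C (levelRes N (4 * N) (Dvd.intro_left _ rfl)) I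
    have hdict : ∃ j : C.W →+ JZero (4 * N), Function.Injective j ∧
        ∀ (σ : GQ) (x : C.W), j (C.act σ x) = σ • j x := exists_dict hp 𝒜
    obtain ⟨j, hjinj, hjeq⟩ := hdict
    -- `E` embeds into a power of `J₀(4N)[p^k]`
    have hjt : ∀ (e : E) (i : ι'), j (e.1 i) ∈ Submodule.torsionBy ℤ (JZero (4 * N)) ((p : ℤ) ^ k) := by
      intro e i
      rw [Submodule.mem_torsionBy_iff, ← map_zsmul]
      have h := hEt e.1 e.2 i
      have h' : ((p : ℤ) ^ k) • e.1 i = 0 := by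
        rw [← Nat.cast_pow, natCast_zsmul]; exact h
      rw [h', map_zero]
    let F : E →+ (ι' → Submodule.torsionBy ℤ (JZero (4 * N)) ((p : ℤ) ^ k)) :=
      { toFun := fun e i => ⟨j (e.1 i), hjt e i⟩
        map_zero' := by
          funext i
          exact Subtype.ext (map_zero j)
        map_add' := fun a b => by
          funext i
          exact Subtype.ext (map_add j _ _) }
    have hFinj : Function.Injective F := by
      intro a b hab
      apply Subtype.ext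
      funext i
      have := congrArg (fun f => ((f i : Submodule.torsionBy ℤ (JZero (4 * N)) ((p : ℤ) ^ k)) :
        JZero (4 * N))) hab
      exact hjinj this
    have hrepE : HasRep A E (fun σ e => ⟨fun i => C.act σ (e.1 i), hE σ e.1 e.2⟩) := by
      refine HasRep.of_injective (HasRep.pi (hRep A hA k) ι') F hFinj ?_
      intro σ e
      funext i
      exact Subtype.ext (hjeq σ (e.1 i))
    have hrepV : HasRep A (H.ρ.V ⧸ (I • (⊤ : Submodule T H.ρ.V)))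
        (fun σ v => H.ρ.levelAction I σ v) :=
      HasRep.of_surjective hp hA hrepE Ψ hΨs (fun σ e => hΨe σ e)
    have := finite_level H.ρ I
    exact hH1 A hA _ _ hrepV

end Fermat.Agent.S32
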