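/-
S32 / Chain : the frozen statements S32 and S19 from the single open contract
`RepContract M ℓ` ((REP) for `J₀(M)[ℓ^k]`, `ℓ ∤ M`).  No sorry.
-/
import Mathlib
import Fermat.Agent.S32.Main
import Fermat.Agent.S19.H.OfRep
import Fermat.Agent.GAL.KLC.Main
import Fermat.Agent.S27.H.Main
import Fermat.Agent.S27.B.Lefschetz
import Fermat.Agent.S24.Mod.Degree

set_option autoImplicit false

namespace Fermat.Agent.S32

open ModularCurve AlgebraicCurve Fermat.Agent.S24 Fermat.Agent.S24.FF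
open Fermat.Agent.S19 (HasRep HasFFModel Qb GQ)

/-- (H1) is a theorem. -/
theorem h1Contract {p : ℕ} (hp : p.Prime) : H1Contract p := by
  intro A hA Γ _ _ act h
  haveI : Fact p.Prime := ⟨hp⟩
  exact Fermat.Agent.S19.H.hasFFModel_of_hasRep A hA act h

/-- `J₀(M)[n]` is finite. -/
theorem finite_torsionBy_jZero (M : ℕ) [NeZero M] (n : ℕ) (hn : 0 < n) :
    Finite (Submodule.torsionBy ℤ (JZero M) (n : ℤ)) := by
  have hcard : Nat.card (Pic0.torsion Qb (modularFunctionFieldBar M) n) =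
      n ^ (2 * genusFF Qb (modularFunctionFieldBar M)) :=
    Fermat.Agent.S27.card_torsion_of_complex
      (fun Fc _ _ _ n hn => Fermat.Agent.S27.card_torsion_complex Fc n hn) Qb _ n hn
  have hfin : Finite (Pic0.torsion Qb (modularFunctionFieldBar M) n) :=
    Nat.finite_of_card_ne_zero (by rw [hcard]; exact (pow_pos hn _).ne')
  refine Finite.of_injective
    (fun x : Submodule.torsionBy ℤ (JZero M) (n : ℤ) =>
      (⟨(x : JZero M), by
        rw [Pic0.mem_torsion]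
        exact (Submodule.mem_torsionBy_iff _ _).1 x.2⟩ :
        Pic0.torsion Qb (modularFunctionFieldBar M) n)) ?_
  intro x y h
  exact Subtype.ext (congrArg (fun z : Pic0.torsion Qb (modularFunctionFieldBar M) n => z.1) h)

/-- the frozen statement S19 from (REP). -/
theorem S19_of_rep (p : ℕ) [NeZero p] (ℓ : ℕ) [Fact ℓ.Prime] (hRep : RepContract p ℓ) (k : ℕ) :
    ∃ (H : Type) (_ : CommRing H) (_ : HopfAlgebra (GaloisRep.ratLocalizedAt ℓ) H),
      Module.Finite (GaloisRep.ratLocalizedAt ℓ) H ∧ Module.Flat (GaloisRep.ratLocalizedAt ℓ) H ∧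
      Coalgebra.IsCocomm (GaloisRep.ratLocalizedAt ℓ) H ∧
      ∃ e : WithConv (H →ₐ[GaloisRep.ratLocalizedAt ℓ] AlgebraicClosure ℚ) ≃
          ↥(Submodule.torsionBy ℤ (JZero p) ((ℓ : ℤ) ^ k)),
        (∀ f g, e (f * g) = e f + e g) ∧
        ∀ (σ : AlgebraicClosure ℚ ≃ₐ[ℚ] AlgebraicClosure ℚ)
          (f g : WithConv (H →ₐ[GaloisRep.ratLocalizedAt ℓ] AlgebraicClosure ℚ)),
          (∀ h : H, g h = σ (f h)) → ((e g : JZero p)) = σ • (e f : JZero p) := by
  have hℓ : ℓ.Prime := Fact.out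
  obtain ⟨A, hA⟩ := Fermat.Agent.Lib.FrobeniusExists.exists_liesOverPrime (L := Qb) hℓ
  haveI : Finite (Submodule.torsionBy ℤ (JZero p) ((ℓ : ℤ) ^ k)) := by
    have := finite_torsionBy_jZero p (ℓ ^ k) (pow_pos hℓ.pos k)
    rwa [Nat.cast_pow] at this
  obtain ⟨H, i1, i2, h1, h2, h3, e, he, hσ⟩ := h1Contract hℓ A hA _ _ (hRep A hA k)
  refine ⟨H, i1, i2, h1, h2, h3, e, he, fun σ f g hfg => ?_⟩
  rw [hσ σ f g hfg, coe_torAct]

/-- the frozen statement S32 from (REP) at level `4 N`. -/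
theorem S32_of_rep {p : ℕ} {N : ℕ} [NeZero N] {S : Finset ℕ}
    {𝒪 : Type} [CommRing 𝒪] [IsDomain 𝒪] [IsDiscreteValuationRing 𝒪]
    [IsAdicComplete (IsLocalRing.maximalIdeal 𝒪) 𝒪]
    {θ : CuspForm.heckeAlgebra N 2 (↑S : Set ℕ) →+* IsLocalRing.ResidueField 𝒪}
    {T : Type} [CommRing T] [IsLocalRing T] [IsNoetherianRing T]
    [IsAdicComplete (IsLocalRing.maximalIdeal T) T] [Algebra 𝒪 T] [IsLocalHom (algebraMap 𝒪 T)]
    [Module.Finite 𝒪 T] [Module.Free 𝒪 T]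
    [Finite (IsLocalRing.ResidueField 𝒪)]
    (hRep : RepContract (4 * N) p)
    (hp : p.Prime) (hp𝒪 : (p : 𝒪) ∈ IsLocalRing.maximalIdeal 𝒪)
    (H : CuspForm.HeckeGaloisRepDatum N (↑S : Set ℕ) 𝒪 θ T) :
    H.ρ.IsFlatAt p :=
  S32_of_contracts Fermat.Agent.GAL.KLC.keyLemma hRep (h1Contract hp) hp hp𝒪 H

end Fermat.Agent.S32
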