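import Mathlib
import Fermat.Agent.S19.Defs

/-!
# S32-C2a : Galois equivariant functions on a finite `G`-set
-/

set_option autoImplicit false

namespace Fermat.Agent.S19

open Polynomial

/-! ### L1 : `ℤ_(ℓ)` is a PID -/

theorem eqFun_inv_den_mem (ℓ : ℕ) {x : ℚ} (hx : x ∈ GaloisRep.ratLocalizedAt ℓ) :
    ((x.den : ℚ)⁻¹) ∈ GaloisRep.ratLocalizedAt ℓ := by
  show ((x.den : ℚ)⁻¹).den.Coprime ℓ
  rw [Rat.inv_natCast_den, if_neg x.den_nz]
  exact hx

/-- L1 -/
theorem ratLocalizedAt_isPrincipalIdealRing {ℓ : ℕ} (_hℓ : ℓ.Prime) :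
    IsPrincipalIdealRing (GaloisRep.ratLocalizedAt ℓ) := by
  refine ⟨fun I => ?_⟩
  obtain ⟨m, hm⟩ := (IsPrincipalIdealRing.principal
    (I.comap (Int.castRingHom (GaloisRep.ratLocalizedAt ℓ)))).principal
  refine ⟨⟨(m : GaloisRep.ratLocalizedAt ℓ), le_antisymm ?_ ?_⟩⟩
  · intro x hx
    set i : GaloisRep.ratLocalizedAt ℓ := ⟨((x : ℚ).den : ℚ)⁻¹, eqFun_inv_den_mem ℓ x.2⟩ with hi
    have h1 : (((x : ℚ).num : ℤ) : GaloisRep.ratLocalizedAt ℓ) =
        x * (((x : ℚ).den : ℕ) : GaloisRep.ratLocalizedAt ℓ) := by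
      apply Subtype.ext
      push_cast
      exact (Rat.mul_den_eq_num (x : ℚ)).symm
    have h2 : (x : ℚ).num ∈ I.comap (Int.castRingHom (GaloisRep.ratLocalizedAt ℓ)) := by
      rw [Ideal.mem_comap, eq_intCast, h1]
      exact I.mul_mem_right _ hx
    rw [hm] at h2
    obtain ⟨c, hc⟩ := Ideal.mem_span_singleton'.1 h2
    have h3 : x = (((x : ℚ).num : ℤ) : GaloisRep.ratLocalizedAt ℓ) * i := by
      apply Subtype.ext
      push_cast
      rw [hi]
      exact (Rat.num_div_den (x : ℚ)).symm.trans (div_eq_mul_inv _ _)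
    rw [h3, ← hc]
    refine Ideal.mem_span_singleton'.2 ⟨(c : GaloisRep.ratLocalizedAt ℓ) * i, ?_⟩
    push_cast
    ring
  · rw [Submodule.span_singleton_le_iff_mem]
    have : m ∈ I.comap (Int.castRingHom (GaloisRep.ratLocalizedAt ℓ)) := by
      rw [hm]; exact Ideal.mem_span_singleton_self m
    simpa using this

/-! ### L2 : `A ∩ ℚ = ℤ_(ℓ)` -/

theorem eqFun_val_int_le (A : ValuationSubring Qb) (m : ℤ) : A.valuation (m : Qb) ≤ 1 :=
  (A.valuation_le_one_iff _).2 (intCast_mem A m)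

theorem eqFun_val_int_lt {ℓ : ℕ} {A : ValuationSubring Qb} (hA : A.LiesOverPrime ℓ) {m : ℤ}
    (h : (ℓ : ℤ) ∣ m) : A.valuation (m : Qb) < 1 := by
  obtain ⟨c, rfl⟩ := h
  have h1 : A.valuation ((ℓ : ℕ) : Qb) < 1 := (ValuationSubring.mem_nonunits_iff A).1 hA
  push_cast
  rw [map_mul]
  exact lt_of_le_of_lt (mul_le_of_le_one_right' (eqFun_val_int_le A c)) h1

theorem eqFun_val_int_eq {ℓ : ℕ} (hℓ : ℓ.Prime) {A : ValuationSubring Qb}
    (hA : A.LiesOverPrime ℓ) {m : ℤ} (h : ¬ (ℓ : ℤ) ∣ m) : A.valuation (m : Qb) = 1 := by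
  refine le_antisymm (eqFun_val_int_le A m) (not_lt.1 fun hlt => ?_)
  have hcop : IsCoprime m (ℓ : ℤ) :=
    ((Nat.prime_iff_prime_int.1 hℓ).coprime_iff_not_dvd.2 h).symm
  obtain ⟨a, b, hab⟩ := hcop
  have h1 : A.valuation ((a * m + b * ℓ : ℤ) : Qb) < 1 := by
    push_cast
    refine Valuation.map_add_lt _ ?_ ?_
    · rw [map_mul]; exact lt_of_le_of_lt (mul_le_of_le_one_left' (eqFun_val_int_le A a)) hlt
    · rw [map_mul]
      exact lt_of_le_of_lt (mul_le_of_le_one_left' (eqFun_val_int_le A b))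
        ((ValuationSubring.mem_nonunits_iff A).1 hA)
  rw [hab] at h1
  simp at h1

/-- L2 -/
theorem algebraMap_mem_iff {ℓ : ℕ} (hℓ : ℓ.Prime) {A : ValuationSubring Qb}
    (hA : A.LiesOverPrime ℓ) (q : ℚ) :
    algebraMap ℚ Qb q ∈ A ↔ q ∈ GaloisRep.ratLocalizedAt ℓ := by
  have hq : algebraMap ℚ Qb q = ((q.num : ℤ) : Qb) / (((q.den : ℕ) : ℤ) : Qb) := by
    conv_lhs => rw [← Rat.num_div_den q]
    rw [map_div₀, map_intCast, map_natCast]
    push_cast
    rfl
  rw [← A.valuation_le_one_iff, hq, map_div₀]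
  show _ ↔ q.den.Coprime ℓ
  constructor
  · intro h
    by_contra hc
    have hd : ℓ ∣ q.den := by
      rw [Nat.coprime_comm, hℓ.coprime_iff_not_dvd, not_not] at hc
      exact hc
    have hd' : (ℓ : ℤ) ∣ ((q.den : ℕ) : ℤ) := Int.natCast_dvd_natCast.2 hd
    have hn : ¬ (ℓ : ℤ) ∣ q.num := by
      intro hn
      have h1 : ℓ ∣ q.num.natAbs := Int.natCast_dvd.1 hn
      have h2 := Nat.dvd_gcd h1 hd
      rw [q.reduced] at h2
      exact hℓ.one_lt.ne' (Nat.dvd_one.1 h2)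
    rw [eqFun_val_int_eq hℓ hA hn] at h
    have h3 := eqFun_val_int_lt hA hd'
    have h0 : A.valuation ((((q.den : ℕ) : ℤ)) : Qb) ≠ 0 := by
      rw [Ne, map_eq_zero]
      exact_mod_cast q.den_nz
    rw [div_le_iff₀ (zero_lt_iff.2 h0), one_mul] at h
    exact absurd h3 (not_lt.2 h)
  · intro hc
    have hd : ¬ (ℓ : ℤ) ∣ ((q.den : ℕ) : ℤ) := by
      intro h
      have := Int.natCast_dvd_natCast.1 h
      rw [Nat.coprime_comm, hℓ.coprime_iff_not_dvd] at hc
      exact hc this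
    rw [eqFun_val_int_eq hℓ hA hd, div_one]
    exact eqFun_val_int_le A _

/-! ### L0 : fixed elements are rational -/

/-- L0 -/
theorem mem_range_algebraMap_of_fixed (a : Qb) (h : ∀ σ : GQ, σ a = a) :
    a ∈ Set.range (algebraMap ℚ Qb) := by
  have hgal : IsGalois ℚ Qb :=
    @IsAlgClosure.isGalois ℚ (AlgebraicClosure ℚ) _ _ (AlgebraicClosure.instAlgebra ℚ) _ _
  exact (InfiniteGalois.mem_range_algebraMap_iff_fixed (k := ℚ) (K := Qb) a).2 h

/-! ### L3, L4 -/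

theorem eqFun_sum_apply_sigma {Ω ι : Type} (act : GQ → Ω → Ω)
    (hact : ∀ σ, Function.Surjective (act σ)) (e : ι → Ω → Qb)
    (he : ∀ i (σ : GQ) ω, e i (act σ ω) = σ (e i ω)) (s : Finset ι) (g : ι → Qb)
    (h : ∑ i ∈ s, g i • e i = 0) (σ : GQ) : ∑ i ∈ s, σ (g i) • e i = 0 := by
  funext ω
  obtain ⟨ω', rfl⟩ := hact σ ω
  have h1 := congrFun h ω'
  simp only [Finset.sum_apply, Pi.smul_apply, smul_eq_mul, Pi.zero_apply] at h1 ⊢
  have h2 := congrArg σ h1
  rw [map_sum, map_zero] at h2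
  rw [← h2]
  exact Finset.sum_congr rfl fun i _ => by rw [he, map_mul]

/-- L3 (Artin) -/
theorem linearIndependent_of_equivariant {Ω ι : Type} (act : GQ → Ω → Ω)
    (hact : ∀ σ, Function.Surjective (act σ)) (e : ι → Ω → Qb)
    (he : ∀ i (σ : GQ) ω, e i (act σ ω) = σ (e i ω)) (hli : LinearIndependent ℚ e) :
    LinearIndependent Qb e := by
  classical
  rw [linearIndependent_iff']
  intro s
  induction s using Finset.strongInduction with
  | H s ih =>
    intro g hg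
    by_contra hcon
    push Not at hcon
    obtain ⟨i₀, hi₀, hgi₀⟩ := hcon
    -- normalise
    set g' : ι → Qb := fun i => (g i₀)⁻¹ * g i with hg'
    have hg'0 : ∑ i ∈ s, g' i • e i = 0 := by
      have : ∑ i ∈ s, g' i • e i = (g i₀)⁻¹ • ∑ i ∈ s, g i • e i := by
        rw [Finset.smul_sum]
        exact Finset.sum_congr rfl fun i _ => by rw [hg', smul_smul]
      rw [this, hg, smul_zero]
    have hg'1 : g' i₀ = 1 := inv_mul_cancel₀ hgi₀
    -- all coefficients are fixed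
    have hfix : ∀ i ∈ s, ∀ σ : GQ, σ (g' i) = g' i := by
      intro i hi σ
      by_cases hii : i = i₀
      · rw [hii, hg'1, map_one]
      have h1 := eqFun_sum_apply_sigma act hact e he s g' hg'0 σ
      have h2 : ∑ j ∈ s.erase i₀, (σ (g' j) - g' j) • e j = 0 := by
        have h3 : ∑ j ∈ s, (σ (g' j) - g' j) • e j = 0 := by
          simp only [sub_smul, Finset.sum_sub_distrib, h1, hg'0, sub_zero]
        rw [← Finset.add_sum_erase s _ hi₀, hg'1, map_one, sub_self, zero_smul, zero_add] at h3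
        exact h3
      have h4 := ih (s.erase i₀) (Finset.erase_ssubset hi₀) _ h2 i (Finset.mem_erase.2 ⟨hii, hi⟩)
      exact sub_eq_zero.1 h4
    -- rational coefficients
    have hrat : ∀ i, ∃ r : ℚ, i ∈ s → algebraMap ℚ Qb r = g' i := by
      intro i
      by_cases hi : i ∈ s
      · obtain ⟨r, hr⟩ := mem_range_algebraMap_of_fixed (g' i) (hfix i hi)
        exact ⟨r, fun _ => hr⟩
      · exact ⟨0, fun h => absurd h hi⟩
    choose r hr using hrat
    have hrel : ∑ i ∈ s, r i • e i = 0 := by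
      rw [← hg'0]
      refine Finset.sum_congr rfl fun i hi => ?_
      rw [← hr i hi, algebraMap_smul]
    have h5 := (linearIndependent_iff'.1 hli) s r hrel i₀ hi₀
    have h6 := hr i₀ hi₀
    rw [h5, map_zero, hg'1] at h6
    exact zero_ne_one h6

/-- L4 -/
theorem coeff_mem_range_of_equivariant {Ω ι : Type} [Fintype ι] (act : GQ → Ω → Ω)
    (hact : ∀ σ, Function.Surjective (act σ)) (e : ι → Ω → Qb)
    (he : ∀ i (σ : GQ) ω, e i (act σ ω) = σ (e i ω)) (hli : LinearIndependent Qb e)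
    (α : ι → Qb) (hφ : ∀ (σ : GQ) ω, (∑ i, α i * e i (act σ ω)) = σ (∑ i, α i * e i ω)) (i : ι) :
    α i ∈ Set.range (algebraMap ℚ Qb) := by
  apply mem_range_algebraMap_of_fixed
  intro σ
  have h1 : ∑ j, (σ (α j) - α j) • e j = 0 := by
    funext ω
    obtain ⟨ω', rfl⟩ := hact σ ω
    have h2 := hφ σ ω'
    rw [map_sum] at h2
    simp only [Finset.sum_apply, Pi.smul_apply, smul_eq_mul, Pi.zero_apply, sub_mul,
      Finset.sum_sub_distrib]
    rw [h2, sub_eq_zero]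
    exact Finset.sum_congr rfl fun j _ => by rw [he, map_mul]
  have h3 := (linearIndependent_iff'.1 hli) Finset.univ _ h1 i (Finset.mem_univ i)
  exact sub_eq_zero.1 h3

/-! ### L5 : integrality -/

/-- L5 -/
theorem isIntegral_of_isEqFun {ℓ : ℕ} (hℓ : ℓ.Prime) {A : ValuationSubring Qb}
    (hA : A.LiesOverPrime ℓ) {Ω : Type} [Finite Ω] (act : GQ → Ω → Ω)
    (hact : ∀ σ, Function.Bijective (act σ)) (φ : Ω → Qb) (hφ : IsEqFun A act φ) :
    IsIntegral (GaloisRep.ratLocalizedAt ℓ) φ := by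
  classical
  cases nonempty_fintype Ω
  set P : Qb[X] := ∏ ω : Ω, (X - C (φ ω)) with hP
  have hPm : P.Monic := monic_prod_of_monic _ _ fun ω _ => monic_X_sub_C _
  -- coefficients in `A`
  have hPA : ∀ n, P.coeff n ∈ A := by
    intro n
    have : P = (∏ ω : Ω, (X - C (⟨φ ω, hφ.1 ω⟩ : A))).map A.subtype := by
      rw [Polynomial.map_prod]
      exact Finset.prod_congr rfl fun ω _ => by simp
    rw [this, coeff_map]
    exact SetLike.coe_mem _
  -- coefficients fixed by Galois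
  have hPσ : ∀ σ : GQ, P.map (σ : Qb →+* Qb) = P := by
    intro σ
    rw [hP, Polynomial.map_prod]
    rw [← Equiv.prod_comp (Equiv.ofBijective (act σ) (hact σ)) fun ω => X - C (φ ω)]
    refine Finset.prod_congr rfl fun ω _ => ?_
    rw [Polynomial.map_sub, map_X, map_C, Equiv.ofBijective_apply, hφ.2]
    rfl
  have hlift : P ∈ lifts (algebraMap (GaloisRep.ratLocalizedAt ℓ) Qb) := by
    rw [lifts_iff_coeff_lifts]
    intro n
    obtain ⟨r, hr⟩ := mem_range_algebraMap_of_fixed (P.coeff n) (fun σ => by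
      have := congrArg (fun Q => Q.coeff n) (hPσ σ)
      simpa [coeff_map] using this)
    have hrR : r ∈ GaloisRep.ratLocalizedAt ℓ := (algebraMap_mem_iff hℓ hA r).1 (hr ▸ hPA n)
    exact ⟨⟨r, hrR⟩, hr⟩
  obtain ⟨P₀, hP₀, -, hP₀m⟩ := lifts_and_degree_eq_and_monic hlift hPm
  refine ⟨P₀, hP₀m, ?_⟩
  funext ω
  have h1 := Polynomial.hom_eval₂ P₀ (algebraMap (GaloisRep.ratLocalizedAt ℓ) (Ω → Qb))
    (Pi.evalRingHom (fun _ : Ω => Qb) ω) φ
  have h2 : (Pi.evalRingHom (fun _ : Ω => Qb) ω).comp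
      (algebraMap (GaloisRep.ratLocalizedAt ℓ) (Ω → Qb)) =
      algebraMap (GaloisRep.ratLocalizedAt ℓ) Qb := rfl
  rw [h2] at h1
  show (Pi.evalRingHom (fun _ : Ω => Qb) ω) _ = 0
  rw [h1, ← eval_map, hP₀, hP, eval_prod]
  exact Finset.prod_eq_zero (Finset.mem_univ ω) (by simp)

/-! ### L6 : separating subalgebras -/

/-- L6 -/
theorem span_eq_top_of_separates {Ω : Type} [Finite Ω] (S : Subalgebra Qb (Ω → Qb))
    (hS : ∀ ω ω', ω ≠ ω' → ∃ φ ∈ S, φ ω ≠ φ ω') : S = ⊤ := by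
  classical
  cases nonempty_fintype Ω
  have hex : ∀ ω ω', ∃ φ ∈ S, ω ≠ ω' → φ ω ≠ φ ω' := by
    intro ω ω'
    by_cases h : ω = ω'
    · exact ⟨0, S.zero_mem, fun h' => absurd h h'⟩
    · obtain ⟨φ, hφ, hne⟩ := hS ω ω' h
      exact ⟨φ, hφ, fun _ => hne⟩
  choose ψ hψS hψ using hex
  set ind : Ω → Ω → Qb := fun ω => ∏ ω' ∈ Finset.univ.erase ω,
    ((ψ ω ω' ω - ψ ω ω' ω')⁻¹ • (ψ ω ω' - algebraMap Qb (Ω → Qb) (ψ ω ω' ω'))) with hind
  have hindS : ∀ ω, ind ω ∈ S := fun ω =>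
    S.prod_mem fun ω' _ => S.smul_mem (S.sub_mem (hψS ω ω') (S.algebraMap_mem _)) _
  have hind1 : ∀ ω, ind ω ω = 1 := by
    intro ω
    rw [hind]
    simp only [Finset.prod_apply, Pi.smul_apply, Pi.sub_apply, Pi.algebraMap_apply,
      Algebra.algebraMap_self, RingHom.id_apply, smul_eq_mul]
    refine Finset.prod_eq_one fun ω' hω' => ?_
    exact inv_mul_cancel₀ (sub_ne_zero.2 (hψ ω ω' (Finset.ne_of_mem_erase hω').symm))
  have hind0 : ∀ ω x, x ≠ ω → ind ω x = 0 := by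
    intro ω x hx
    rw [hind]
    simp only [Finset.prod_apply, Pi.smul_apply, Pi.sub_apply, Pi.algebraMap_apply,
      Algebra.algebraMap_self, RingHom.id_apply, smul_eq_mul]
    exact Finset.prod_eq_zero (Finset.mem_erase.2 ⟨hx, Finset.mem_univ x⟩) (by rw [sub_self, mul_zero])
  rw [eq_top_iff]
  intro f _
  have hf : f = ∑ ω, f ω • ind ω := by
    funext x
    simp only [Finset.sum_apply, Pi.smul_apply, smul_eq_mul]
    rw [Finset.sum_eq_single x]
    · rw [hind1, mul_one]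
    · intro ω _ hω
      rw [hind0 ω x hω.symm, mul_zero]
    · intro h; exact absurd (Finset.mem_univ x) h
  rw [hf]
  exact S.sum_mem fun ω _ => S.smul_mem (hindS ω) _

end Fermat.Agent.S19
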